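/-
T1G-AN (helper1), AN-GMOD part 1: the GENERIC analytic model of a field of modular functions of
level `h`, parametrised by a generating system `G : TgxGens 𝕜 h` (a set of holomorphic functions on
`ℍ`, containing the `j(d γ τ)`, `d ∣ h`, stable under `SL(2, ℤ)`, invariant under `Γ(h)`, with
`q_h`-expansions with coefficients in `𝕜`).  Port of `Lib/T1/Dict/KMod/{Ring,Act}.lean` (helper3) with
the generating set abstracted.
-/
import Mathlib
import Fermat.Agent.Lib.T1.Dict.KMod.Act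

set_option autoImplicit false
set_option linter.unusedSectionVars false
set_option linter.style.haveILetI false
set_option linter.unusedVariables false

namespace Fermat.Agent.T1G

open Fermat.Agent.S24Lib Fermat.Agent.T1
open UpperHalfPlane Filter Topology Matrix MatrixGroups CongruenceSubgroup
open scoped Manifold
open Fermat.Agent.S22Lib (intGL)
open Fermat.Agent.ES (IsQLaurentable qLaurent)

/-- **a generating system of level `h`** -/
structure TgxGens (𝕜 : Type) [Field 𝕜] [IsAlgClosed 𝕜] [Algebra 𝕜 ℂ] (h : ℕ) [NeZero h] where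
  /-- the generators -/
  gens : Set (ℍ → ℂ)
  /-- the functions `j(d γ τ)`, `d ∣ h`, are generators -/
  jgen_mem : S24Lib.gens h ⊆ gens
  /-- the generators have `q_h`-expansions -/
  laur : ∀ g ∈ gens, IsQLaurentable h g
  /-- with coefficients in `𝕜` -/
  rat : ∀ g ∈ gens, qLaurent h g ∈ ratLS (KMod.kImg 𝕜)
  /-- the generators are permuted by `SL(2, ℤ)` -/
  act_mem : ∀ (γ : SL(2, ℤ)), ∀ g ∈ gens, KMod.slAct 𝕜 γ g ∈ gens
  /-- the generators are invariant under `Γ(h)` -/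
  gamma_inv : ∀ γ ∈ Gamma h, ∀ g ∈ gens, KMod.slAct 𝕜 γ g = g

variable {𝕜 : Type} [Field 𝕜] [IsAlgClosed 𝕜] [Algebra 𝕜 ℂ] {h : ℕ} [NeZero h]
  (G : TgxGens 𝕜 h)

/-- the `𝕜`-algebra generated by the generators -/
noncomputable def tgxRing : Subalgebra 𝕜 (ℍ → ℂ) := Algebra.adjoin 𝕜 G.gens

theorem tgx_gen_mem_ring {g : ℍ → ℂ} (hg : g ∈ G.gens) : g ∈ tgxRing G :=
  Algebra.subset_adjoin hg

theorem tgx_jGen_mem_ring {d : ℕ+} (hd : (d : ℕ) ∣ h) (γ : SL(2, ℤ)) : jGen d γ ∈ tgxRing G :=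
  tgx_gen_mem_ring G (G.jgen_mem ⟨d, hd, γ, rfl⟩)

theorem tgx_jFun_mem_ring : jFun ∈ tgxRing G := by
  rw [← jGen_one_one]
  exact tgx_jGen_mem_ring G (d := 1) (by simp) 1

/-- the basic properties of the elements of `tgxRing G` -/
theorem tgxRing_props {f : ℍ → ℂ} (hf : f ∈ tgxRing G) :
    IsQLaurentable h f ∧ qLaurent h f ∈ ratLS (KMod.kImg 𝕜) := by
  induction hf using Algebra.adjoin_induction with
  | mem f hf => exact ⟨G.laur f hf, G.rat f hf⟩
  | algebraMap c =>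
    refine ⟨IsQLaurentable.const h ((algebraMap 𝕜 ℂ) c), ?_⟩
    have : (algebraMap 𝕜 (ℍ → ℂ) c) = fun _ => (algebraMap 𝕜 ℂ) c := rfl
    rw [this, Fermat.Agent.ES.qLaurent_const]
    exact C_mem_ratLS ⟨c, rfl⟩
  | add f g _ _ hf hg =>
    refine ⟨hf.1.add hg.1, ?_⟩
    have : qLaurent h (f + g) = qLaurent h f + qLaurent h g :=
      Fermat.Agent.ES.qLaurent_add hf.1 hg.1
    rw [this]
    exact add_mem hf.2 hg.2
  | mul f g _ _ hf hg =>
    refine ⟨hf.1.mul hg.1, ?_⟩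
    have : qLaurent h (f * g) = qLaurent h f * qLaurent h g :=
      Fermat.Agent.ES.qLaurent_mul hf.1 hg.1
    rw [this]
    exact mul_mem hf.2 hg.2

theorem tgx_mdiff_of_mem_ring {f : ℍ → ℂ} (hf : f ∈ tgxRing G) : MDiff f :=
  (tgxRing_props G hf).1.mdiff

theorem tgx_slAct_mem_ring (γ : SL(2, ℤ)) {f : ℍ → ℂ} (hf : f ∈ tgxRing G) :
    KMod.slAct 𝕜 γ f ∈ tgxRing G := by
  induction hf using Algebra.adjoin_induction with
  | mem f hf => exact tgx_gen_mem_ring G (G.act_mem γ f hf)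
  | algebraMap c =>
    rw [AlgEquiv.commutes]
    exact Subalgebra.algebraMap_mem _ c
  | add f g _ _ hf hg => rw [map_add]; exact add_mem hf hg
  | mul f g _ _ hf hg => rw [map_mul]; exact mul_mem hf hg

/-! ### Invariant elements are polynomials in `j` -/

local notation "Δ" => ModularForm.discriminant

open Fermat.Agent.ES in
/-- **Invariant elements of `tgxRing G` are polynomials in `j` with coefficients in `𝕜`.** -/
theorem tgxRing_invariant {f : ℍ → ℂ} (hf : f ∈ tgxRing G)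
    (hinv : ∀ (γ : SL(2, ℤ)) (τ : ℍ), f (γ • τ) = f τ) :
    ∃ P : Polynomial 𝕜, ∀ τ, f τ = (P.map (algebraMap 𝕜 ℂ)).eval (jFun τ) := by
  obtain ⟨hq, hrat⟩ := tgxRing_props G hf
  -- `f` is `1`-periodic
  have hper : ∀ z : ℍ, f (((1 : ℕ) : ℝ) +ᵥ z) = f z := by
    intro z
    rw [Nat.cast_one, ← UpperHalfPlane.modular_T_smul, hinv]
  have hq1 : IsQLaurentable 1 f := ⟨hq.mdiff, hper, hq.mero⟩
  obtain ⟨m, hm⟩ := hq.mero
  -- rationality of the `q`-expansion
  have hcp := (qLaurent_change_period h hq1).2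
  have hrat1 : qLaurent 1 f ∈ ratLS (KMod.kImg 𝕜) := by
    intro n
    have := hrat ((h : ℤ) * n)
    rwa [hcp, ModularCurve.qExpand_coeff_mul] at this
  have hΔnice : IsNice ((1 : ℕ) : ℝ) (Δ : ℍ → ℂ) := isNice_discriminant 1
  have hΔrat : qLaurent 1 (Δ : ℍ → ℂ) ∈ ratLS (KMod.kImg 𝕜) := by
    rw [qLaurent_of_nice hΔnice]
    intro n
    rcases lt_or_ge n 0 with hn | hn
    · rw [ModularCurve.ofPowerSeries_coeff_of_neg _ hn]
      exact zero_mem _
    · lift n to ℕ using hn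
      rw [HahnSeries.ofPowerSeries_apply_coeff]
      have := ratPS_discriminant (KMod.kImg 𝕜) n
      simpa using this
  have hFq : IsQLaurentable 1 (fun τ => f τ * Δ τ ^ m) :=
    hq1.mul (hΔnice.isQLaurentable.pow m)
  have hFnice : IsNice ((1 : ℕ) : ℝ) (fun τ => f τ * Δ τ ^ m) :=
    ⟨hFq.mdiff, hFq.periodic, hm⟩
  have hFrat : qLaurent 1 (fun τ => f τ * Δ τ ^ m) ∈ ratLS (KMod.kImg 𝕜) := by
    have h1 : qLaurent 1 (fun τ => f τ * Δ τ ^ m)
        = qLaurent 1 f * qLaurent 1 (fun τ => Δ τ ^ m) :=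
      qLaurent_mul hq1 (hΔnice.isQLaurentable.pow m)
    have h2 : qLaurent 1 (fun τ => Δ τ ^ m) = qLaurent 1 (Δ : ℍ → ℂ) ^ m :=
      qLaurent_pow hΔnice.isQLaurentable m
    rw [h1, h2]
    exact mul_mem hrat1 (pow_mem hΔrat m)
  have hk : ∀ n, (qExpansion 1 (fun τ => f τ * Δ τ ^ m)).coeff n ∈ (KMod.kImg 𝕜) := by
    intro n
    have := hFrat (n : ℤ)
    rw [qLaurent_of_nice hFnice, HahnSeries.ofPowerSeries_apply_coeff] at this
    simpa using this
  obtain ⟨P, -, hPk, hPf⟩ := exists_polynomial_jFun f hq.mdiff hinv m hm (KMod.kImg 𝕜) hk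
  have hlift : P ∈ Polynomial.lifts (algebraMap 𝕜 ℂ) := by
    rw [Polynomial.lifts_iff_coeff_lifts]
    intro n
    exact hPk n
  obtain ⟨P', hP'⟩ := (Polynomial.mem_lifts P).mp hlift
  exact ⟨P', fun τ => by rw [hP']; exact hPf τ⟩

/-! ### The ring is a domain; the action of `SL(2, ℤ)` -/

/-- the `q_h`-expansion on `tgxRing G` -/
noncomputable def tgxRingQL : tgxRing G →+* LaurentSeries ℂ where
  toFun f := qLaurent h (f : ℍ → ℂ)
  map_one' := by
    show qLaurent h (fun _ => (1 : ℂ)) = 1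
    rw [Fermat.Agent.ES.qLaurent_const]
    rfl
  map_mul' f g := Fermat.Agent.ES.qLaurent_mul (tgxRing_props G f.2).1 (tgxRing_props G g.2).1
  map_zero' := by
    show qLaurent h (fun _ => (0 : ℂ)) = 0
    rw [Fermat.Agent.ES.qLaurent_const, map_zero]
  map_add' f g := Fermat.Agent.ES.qLaurent_add (tgxRing_props G f.2).1 (tgxRing_props G g.2).1

theorem tgxRingQL_apply (f : tgxRing G) : tgxRingQL G f = qLaurent h (f : ℍ → ℂ) := rfl

theorem tgxRingQL_injective : Function.Injective (tgxRingQL G) := by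
  rw [injective_iff_map_eq_zero]
  intro f hf
  apply Subtype.ext
  exact (Fermat.Agent.ES.qLaurent_eq_zero_iff (tgxRing_props G f.2).1).mp hf

instance tgxRing_isDomain : IsDomain (tgxRing G) := (tgxRingQL_injective G).isDomain _

/-- the action of `γ ∈ SL(2, ℤ)` on `tgxRing G` as an algebra homomorphism -/
noncomputable def tgxActHom (γ : SL(2, ℤ)) : tgxRing G →ₐ[𝕜] tgxRing G :=
  ((KMod.slAct 𝕜 γ : (ℍ → ℂ) →ₐ[𝕜] (ℍ → ℂ)).comp (tgxRing G).val).codRestrict (tgxRing G)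
    (fun f => tgx_slAct_mem_ring G γ f.2)

@[simp]
theorem coe_tgxActHom (γ : SL(2, ℤ)) (f : tgxRing G) :
    ((tgxActHom G γ f : tgxRing G) : ℍ → ℂ) = KMod.slAct 𝕜 γ (f : ℍ → ℂ) := rfl

/-- the action of `SL(2, ℤ)` on `tgxRing G` -/
noncomputable def tgxAct : SL(2, ℤ) →* (tgxRing G ≃ₐ[𝕜] tgxRing G) where
  toFun γ := AlgEquiv.ofAlgHom (tgxActHom G γ) (tgxActHom G γ⁻¹)
    (by ext f : 2; simp [map_inv])
    (by ext f : 2; simp [map_inv])
  map_one' := by
    ext f : 2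
    simp
  map_mul' γ δ := by
    ext f : 2
    simp

@[simp]
theorem coe_tgxAct (γ : SL(2, ℤ)) (f : tgxRing G) :
    ((tgxAct G γ f : tgxRing G) : ℍ → ℂ) = KMod.slAct 𝕜 γ (f : ℍ → ℂ) := rfl

theorem tgxAct_apply_apply (γ : SL(2, ℤ)) (f : tgxRing G) (τ : ℍ) :
    (tgxAct G γ f : ℍ → ℂ) τ = (f : ℍ → ℂ) (γ⁻¹ • τ) := rfl

/-- the element `j` of `tgxRing G` -/
noncomputable def tgxJR : tgxRing G := ⟨jFun, tgx_jFun_mem_ring G⟩

theorem tgxAct_jR (γ : SL(2, ℤ)) : tgxAct G γ (tgxJR G) = tgxJR G := by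
  apply Subtype.ext
  funext τ
  rw [tgxAct_apply_apply]
  exact jFun_smul γ⁻¹ τ

/-- a generator as an element of `tgxRing G` -/
noncomputable def tgxGenR {g : ℍ → ℂ} (hg : g ∈ G.gens) : tgxRing G := ⟨g, tgx_gen_mem_ring G hg⟩

theorem tgxAct_genR (γ : SL(2, ℤ)) {g : ℍ → ℂ} (hg : g ∈ G.gens) :
    tgxAct G γ (tgxGenR G hg) = tgxGenR G (G.act_mem γ g hg) := rfl

/-- the generators `j(d γ τ)` as elements of `tgxRing G` -/
noncomputable def tgxJGenR {d : ℕ+} (hd : (d : ℕ) ∣ h) (γ : SL(2, ℤ)) : tgxRing G :=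
  ⟨jGen d γ, tgx_jGen_mem_ring G hd γ⟩

theorem tgxAct_jGenR (δ : SL(2, ℤ)) {d : ℕ+} (hd : (d : ℕ) ∣ h) (γ : SL(2, ℤ)) :
    tgxAct G δ (tgxJGenR G hd γ) = tgxJGenR G hd (γ * δ⁻¹) := by
  apply Subtype.ext
  exact KMod.slAct_jGen 𝕜 δ d γ

/-- an algebra automorphism `tgxAct G γ` fixing the generators is the identity -/
theorem tgxAct_eq_one_of_gens (γ : SL(2, ℤ))
    (hγ : ∀ g ∈ G.gens, KMod.slAct 𝕜 γ g = g) : tgxAct G γ = 1 := by
  ext f : 2
  obtain ⟨f, hf⟩ := f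
  show KMod.slAct 𝕜 γ f = f
  induction hf using Algebra.adjoin_induction with
  | mem f hf => exact hγ f hf
  | algebraMap c => exact AlgEquiv.commutes _ c
  | add f g _ _ hf hg => rw [map_add, hf, hg]
  | mul f g _ _ hf hg => rw [map_mul, hf, hg]

theorem tgx_Gamma_le_ker_act : Gamma h ≤ (tgxAct G).ker := by
  intro γ hγ
  rw [MonoidHom.mem_ker]
  exact tgxAct_eq_one_of_gens G γ (G.gamma_inv γ hγ)

theorem tgx_finite_range_act : Finite (tgxAct G).range := by
  haveI : (Gamma h).Normal := Gamma_normal h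
  have hsurj : Function.Surjective
      (QuotientGroup.lift (Gamma h) (tgxAct G).rangeRestrict (fun γ hγ => by
        apply Subtype.ext
        exact (tgx_Gamma_le_ker_act G hγ))) := by
    rintro ⟨_, γ, rfl⟩
    exact ⟨QuotientGroup.mk γ, rfl⟩
  haveI : Finite (SL(2, ℤ) ⧸ Gamma h) := Subgroup.finite_quotient_of_finiteIndex
  exact Finite.of_surjective _ hsurj

end Fermat.Agent.T1G
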