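/-
T1G-AN (helper1), AN-GMOD part 2: the field of modular functions `TgxField G` of a generating system,
the action of `SL(2, ℤ)`, its fixed field `𝕜(j)`.  Port of `Lib/T1/Dict/KMod/{FieldDefs,Galois}.lean`.
-/
import Mathlib
import Fermat.Agent.Lib.T1G.GMod.Gens
import Fermat.Agent.Lib.T1.Dict.KMod.Galois

set_option autoImplicit false
set_option linter.unusedSectionVars false
set_option linter.style.haveILetI false
set_option linter.unusedVariables false

namespace Fermat.Agent.T1G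

open Fermat.Agent.S24Lib Fermat.Agent.T1
open UpperHalfPlane Filter Topology Matrix MatrixGroups CongruenceSubgroup
open scoped Manifold
open Fermat.Agent.S22Lib (intGL)
open Fermat.Agent.ES (IsQLaurentable qLaurent)

variable {𝕜 : Type} [Field 𝕜] [IsAlgClosed 𝕜] [Algebra 𝕜 ℂ] {h : ℕ} [NeZero h]
  (G : TgxGens 𝕜 h)

/-- the field of modular functions generated by `G` -/
abbrev TgxField : Type := FractionRing (tgxRing G)

/-- the action of `SL(2, ℤ)` on `TgxField G` -/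
noncomputable def tgxRep : SL(2, ℤ) →* (TgxField G ≃ₐ[𝕜] TgxField G) :=
  fracRep (L := TgxField G) (tgxAct G)

@[simp]
theorem tgxRep_algebraMap (γ : SL(2, ℤ)) (r : tgxRing G) :
    tgxRep G γ (algebraMap (tgxRing G) (TgxField G) r)
      = algebraMap (tgxRing G) (TgxField G) (tgxAct G γ r) :=
  fracRep_algebraMap (tgxAct G) γ r

/-- `j` as an element of `TgxField G` -/
noncomputable def tgxJL : TgxField G := algebraMap (tgxRing G) (TgxField G) (tgxJR G)

/-- a generator as an element of `TgxField G` -/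
noncomputable def tgxOfGen {g : ℍ → ℂ} (hg : g ∈ G.gens) : TgxField G :=
  algebraMap (tgxRing G) (TgxField G) (tgxGenR G hg)

/-- the function `τ ↦ j(d · γ τ)` as an element of `TgxField G` -/
noncomputable def tgxJGenL {d : ℕ+} (hd : (d : ℕ) ∣ h) (γ : SL(2, ℤ)) : TgxField G :=
  algebraMap (tgxRing G) (TgxField G) (tgxJGenR G hd γ)

theorem tgxRep_jL (γ : SL(2, ℤ)) : tgxRep G γ (tgxJL G) = tgxJL G := by
  rw [tgxJL, tgxRep_algebraMap, tgxAct_jR]

theorem tgxRep_ofGen (γ : SL(2, ℤ)) {g : ℍ → ℂ} (hg : g ∈ G.gens) :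
    tgxRep G γ (tgxOfGen G hg) = tgxOfGen G (G.act_mem γ g hg) := by
  rw [tgxOfGen, tgxRep_algebraMap, tgxAct_genR]
  rfl

theorem tgxRep_jGenL (δ : SL(2, ℤ)) {d : ℕ+} (hd : (d : ℕ) ∣ h) (γ : SL(2, ℤ)) :
    tgxRep G δ (tgxJGenL G hd γ) = tgxJGenL G hd (γ * δ⁻¹) := by
  rw [tgxJGenL, tgxRep_algebraMap, tgxAct_jGenR]
  rfl

theorem tgxJGenL_one_one : tgxJGenL G (d := 1) (one_dvd h) 1 = tgxJL G := by
  unfold tgxJGenL tgxJL
  congr 1
  apply Subtype.ext
  exact jGen_one_one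

/-! ### The fixed field -/

/-- evaluation of a polynomial in `j` inside `tgxRing G` -/
theorem tgx_aeval_jR_apply (P : Polynomial 𝕜) (τ : ℍ) :
    ((Polynomial.aeval (tgxJR G) P : tgxRing G) : ℍ → ℂ) τ
      = (P.map (algebraMap 𝕜 ℂ)).eval (jFun τ) := by
  have h1 : ((Polynomial.aeval (tgxJR G) P : tgxRing G) : ℍ → ℂ)
      = Polynomial.aeval (jFun : ℍ → ℂ) P :=
    Polynomial.aeval_subalgebra_coe P (tgxRing G) (tgxJR G)
  rw [h1]
  have h2 := Polynomial.aeval_algHom_apply (Pi.evalAlgHom 𝕜 (fun _ : ℍ => ℂ) τ)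
    (jFun : ℍ → ℂ) P
  have h3 : (Pi.evalAlgHom 𝕜 (fun _ : ℍ => ℂ) τ) (Polynomial.aeval (jFun : ℍ → ℂ) P)
      = (Polynomial.aeval (jFun : ℍ → ℂ) P) τ := rfl
  rw [← h3, ← h2]
  rw [Polynomial.aeval_def, Polynomial.eval₂_eq_eval_map]
  rfl

/-- invariant elements of `tgxRing G` are polynomials in `j` -/
theorem tgx_mem_adjoin_jR_of_invariant (f : tgxRing G) (hinv : ∀ γ, tgxAct G γ f = f) :
    f ∈ Algebra.adjoin 𝕜 {tgxJR G} := by
  obtain ⟨P, hP⟩ := tgxRing_invariant G f.2 (fun γ τ => by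
    have h1 : (tgxAct G γ⁻¹ f : ℍ → ℂ) τ = (f : ℍ → ℂ) τ := by rw [hinv]
    rw [tgxAct_apply_apply, inv_inv] at h1
    exact h1)
  have : f = Polynomial.aeval (tgxJR G) P := by
    apply Subtype.ext
    funext τ
    rw [hP τ, tgx_aeval_jR_apply]
  rw [this]
  exact Polynomial.aeval_mem_adjoin_singleton _ _

theorem tgx_finite_range_rep : Finite (tgxRep G).range := by
  haveI := tgx_finite_range_act G
  have hsurj : Function.Surjective (fun x : (tgxAct G).range =>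
      (⟨fracAlgEquivHom (L := TgxField G) x.1, by
        obtain ⟨γ, hγ⟩ := x.2
        exact ⟨γ, by rw [← hγ]; rfl⟩⟩ : (tgxRep G).range)) := by
    rintro ⟨_, γ, rfl⟩
    exact ⟨⟨tgxAct G γ, γ, rfl⟩, rfl⟩
  exact Finite.of_surjective _ hsurj

/-- the fixed field of `SL(2, ℤ)` on `TgxField G` is `𝕜(j)` -/
theorem tgx_fixedField_rep :
    IntermediateField.fixedField (tgxRep G).range = IntermediateField.adjoin 𝕜 {tgxJL G} :=
  fixedField_fracRep_range (L := TgxField G) (tgxAct G) (tgx_finite_range_act G) (tgxJR G)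
    (tgxAct_jR G) (tgx_mem_adjoin_jR_of_invariant G)

theorem tgx_transcendental_jR : Transcendental 𝕜 (tgxJR G) := by
  rw [Transcendental]
  intro hP
  obtain ⟨P, hP0, hP⟩ := hP
  apply hP0
  have h1 : ∀ z : ℂ, (P.map (algebraMap 𝕜 ℂ)).eval z = 0 := by
    intro z
    obtain ⟨τ, rfl⟩ := jFun_surjective z
    rw [← tgx_aeval_jR_apply G P τ, hP]
    rfl
  have h2 : P.map (algebraMap 𝕜 ℂ) = 0 :=
    Polynomial.funext (fun z => by rw [h1 z, Polynomial.eval_zero])
  exact (Polynomial.map_eq_zero_iff (algebraMap 𝕜 ℂ).injective).mp h2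

theorem tgx_transcendental_jL : Transcendental 𝕜 (tgxJL G) := by
  unfold tgxJL
  rw [transcendental_algebraMap_iff (IsFractionRing.injective (tgxRing G) (TgxField G))]
  exact tgx_transcendental_jR G

/-- distinctness: `j(h·γτ) = j(hτ)` identically forces `γ ∈ Γ₀(h)` -/
theorem tgx_mem_Gamma0_of_jGenL_eq (γ : SL(2, ℤ))
    (hγ : tgxJGenL G (pnatN_dvd h) γ = tgxJGenL G (pnatN_dvd h) 1) : γ ∈ Gamma0 h := by
  have hN : 0 < h := Nat.pos_of_ne_zero (NeZero.ne h)
  have h1 : tgxJGenR G (pnatN_dvd h) γ = tgxJGenR G (pnatN_dvd h) 1 :=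
    IsFractionRing.injective (tgxRing G) (TgxField G) hγ
  have h2 : jGen (pnatN h) γ = jGen (pnatN h) 1 := congrArg Subtype.val h1
  have hdet : 0 < (!![(h : ℤ), 0; 0, 1] : Matrix (Fin 2) (Fin 2) ℤ).det := diagN_det_pos h hN
  refine mem_Gamma0_of_jFun_comp_eq h hN hdet γ (fun τ => ?_)
  have h3 := congrFun h2 τ
  have hA : 0 < (diagMat ((pnatN h : ℕ+) : ℕ)).det := by
    rw [diagMat_det]; exact_mod_cast hN
  have e1 : jGen (pnatN h) γ τ = jMat (diagMat ((pnatN h : ℕ+) : ℕ)) hA (γ • τ) :=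
    jMat_mul_SL _ hA γ τ
  have e2 : jGen (pnatN h) 1 τ = jMat (diagMat ((pnatN h : ℕ+) : ℕ)) hA ((1 : SL(2, ℤ)) • τ) :=
    jMat_mul_SL _ hA 1 τ
  rw [e1, e2, one_smul] at h3
  exact h3

/-- the kernel of the action on `TgxField G` is contained in `Γ₀(h)` -/
theorem tgx_ker_rep_le_Gamma0 : (tgxRep G).ker ≤ Gamma0 h := by
  intro γ hγ
  have hγ' : tgxRep G γ⁻¹ = 1 := by
    rw [map_inv, MonoidHom.mem_ker.mp hγ, inv_one]
  apply tgx_mem_Gamma0_of_jGenL_eq G
  have := tgxRep_jGenL G γ⁻¹ (pnatN_dvd h) 1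
  rw [hγ', inv_inv, one_mul] at this
  exact this.symm

end Fermat.Agent.T1G
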