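/-
T1G-AN (helper1), AN-GMOD part 3: the places of `TgxField G` attached to the points of `ℍ`.
Port of `Lib/T1/Dict/KMod/Points.lean`.
-/
import Mathlib
import Fermat.Agent.Lib.T1G.GMod.Field
import Fermat.Agent.Lib.T1.Dict.KMod.Points

set_option autoImplicit false
set_option linter.unusedSectionVars false
set_option linter.style.haveILetI false
set_option linter.unusedVariables false

namespace Fermat.Agent.T1G

open Fermat.Agent.S24Lib Fermat.Agent.T1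
attribute [local instance] KMod.charZero_k

open UpperHalfPlane Filter Topology Matrix MatrixGroups CongruenceSubgroup WithZero
open scoped Manifold
open AlgebraicCurve Fermat.Agent.Curve

variable {𝕜 : Type} [Field 𝕜] [IsAlgClosed 𝕜] [Algebra 𝕜 ℂ] {h : ℕ} [NeZero h]
  (G : TgxGens 𝕜 h)
/-- the inclusion of `tgxRing G` into the ring of holomorphic functions -/
noncomputable def tgxRingToHol : tgxRing G →+* holH where
  toFun f := ⟨f, tgx_mdiff_of_mem_ring G f.2⟩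
  map_one' := rfl
  map_mul' _ _ := rfl
  map_zero' := rfl
  map_add' _ _ := rfl

theorem tgxRingToHol_injective : Function.Injective (tgxRingToHol G) := by
  intro f g h
  apply Subtype.ext
  exact congrArg (fun x : holH => (x : ℍ → ℂ)) h

/-- the order of vanishing at `τ₀` as a valuation on `tgxRing G` -/
noncomputable def tgxPointValuation (τ₀ : ℍ) : Valuation (tgxRing G) ℤᵐ⁰ :=
  (ordValuation τ₀).comap (tgxRingToHol G)

theorem tgxPointValuation_apply (τ₀ : ℍ) {f : tgxRing G} (hf : f ≠ 0) :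
    tgxPointValuation G τ₀ f = exp (-((ordAt (f : ℍ → ℂ) τ₀).toNat : ℤ)) := by
  have h : tgxRingToHol G f ≠ 0 := by
    intro h0
    exact hf (tgxRingToHol_injective G (h0.trans (map_zero _).symm))
  show ordValuation τ₀ (tgxRingToHol G f) = _
  rw [ordValuation_apply h]
  rfl

theorem tgxPointValuation_eq_zero (τ₀ : ℍ) (f : tgxRing G) (h : tgxPointValuation G τ₀ f = 0) :
    f = 0 := by
  have h1 : ordValuation τ₀ (tgxRingToHol G f) = 0 := h
  rw [ordValuation_eq_zero_iff] at h1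
  exact tgxRingToHol_injective G (h1.trans (map_zero _).symm)

theorem tgxPointValuation_algebraMap_le_one (τ₀ : ℍ) (c : 𝕜) :
    tgxPointValuation G τ₀ (algebraMap 𝕜 (tgxRing G) c) ≤ 1 := by
  by_cases hc : c = 0
  · rw [hc, map_zero, map_zero]
    exact zero_le
  have hne : algebraMap 𝕜 (tgxRing G) c ≠ 0 := by
    rw [Ne, map_eq_zero_iff _ (algebraMap 𝕜 (tgxRing G)).injective]
    exact hc
  rw [tgxPointValuation_apply G τ₀ hne]
  have h1 : ((algebraMap 𝕜 (tgxRing G) c : tgxRing G) : ℍ → ℂ) = fun _ => (algebraMap 𝕜 ℂ) c := rfl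
  rw [h1, ordAt_const ((map_ne_zero (algebraMap 𝕜 ℂ)).mpr hc)]
  simp

/-- the valuation at a fixed point of `γ` is `γ`-invariant -/
theorem tgxPointValuation_act (τ₀ : ℍ) {γ : SL(2, ℤ)} (hγ : γ • τ₀ = τ₀) (f : tgxRing G) :
    tgxPointValuation G τ₀ (tgxAct G γ f) = tgxPointValuation G τ₀ f := by
  by_cases hf : f = 0
  · rw [hf, map_zero]
  have hf' : tgxAct G γ f ≠ 0 := by
    rw [Ne, map_eq_zero_iff _ (tgxAct G γ).injective]
    exact hf
  rw [tgxPointValuation_apply G τ₀ hf, tgxPointValuation_apply G τ₀ hf']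
  have h1 : ((tgxAct G γ f : tgxRing G) : ℍ → ℂ) = fun z => (f : ℍ → ℂ) (γ⁻¹ • z) := rfl
  have h2 : γ⁻¹ • τ₀ = τ₀ := by
    rw [inv_smul_eq_iff, hγ]
  rw [h1, ordAt_comp_smul, h2]

/-- the element `j - a` of `tgxRing G` -/
noncomputable def tgxJSubR (a : 𝕜) : tgxRing G := tgxJR G - algebraMap 𝕜 (tgxRing G) a

theorem tgxJSubR_ne_zero (a : 𝕜) : tgxJSubR G a ≠ 0 := by
  intro h
  have h1 : tgxJR G = algebraMap 𝕜 (tgxRing G) a := sub_eq_zero.mp h
  exact tgx_transcendental_jR G (h1 ▸ isAlgebraic_algebraMap a)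

theorem coe_tgxJSubR (a : 𝕜) : ((tgxJSubR G a : tgxRing G) : ℍ → ℂ) = fun τ => jFun τ - (algebraMap 𝕜 ℂ) a :=
  rfl

theorem tgx_algebraMap_jSubR (a : 𝕜) :
    algebraMap (tgxRing G) (TgxField G) (tgxJSubR G a) = tgxJL G - algebraMap 𝕜 (TgxField G) a := by
  rw [tgxJSubR, map_sub, ← IsScalarTower.algebraMap_apply]
  rfl

theorem tgx_ordAt_jSubR_pos (τ₀ : ℍ) (a : 𝕜) (ha : (algebraMap 𝕜 ℂ) a = jFun τ₀) :
    ordAt ((tgxJSubR G a : tgxRing G) : ℍ → ℂ) τ₀ ≠ 0 := by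
  rw [Ne, ordAt_eq_zero_iff (tgx_mdiff_of_mem_ring G (tgxJSubR G a).2), coe_tgxJSubR]
  simp [ha]

theorem tgxPointValuation_jSubR_lt_one (τ₀ : ℍ) (a : 𝕜) (ha : (algebraMap 𝕜 ℂ) a = jFun τ₀) :
    tgxPointValuation G τ₀ (tgxJSubR G a) < 1 := by
  rw [tgxPointValuation_apply G τ₀ (tgxJSubR_ne_zero G a), ← exp_zero, exp_lt_exp]
  have h1 := tgx_ordAt_jSubR_pos G τ₀ a ha
  have h2 : ordAt ((tgxJSubR G a : tgxRing G) : ℍ → ℂ) τ₀ ≠ ⊤ := by
    rw [Ne, ordAt_eq_top_iff (tgx_mdiff_of_mem_ring G (tgxJSubR G a).2)]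
    intro h0
    exact tgxJSubR_ne_zero G a (Subtype.ext h0)
  have h3 : (ordAt ((tgxJSubR G a : tgxRing G) : ℍ → ℂ) τ₀).toNat ≠ 0 := by
    rw [Ne, ENat.toNat_eq_zero]
    tauto
  omega

/-- the place of `TgxField G` attached to the point `τ₀` (with `j(τ₀) = a ∈ ℚ̄`) -/
noncomputable def tgxPointPlace (τ₀ : ℍ) (a : 𝕜) (ha : (algebraMap 𝕜 ℂ) a = jFun τ₀) :
    Place 𝕜 (TgxField G) :=
  fracPlace (L := TgxField G) (tgxPointValuation G τ₀) (tgxPointValuation_eq_zero G τ₀)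
    (tgxPointValuation_algebraMap_le_one G τ₀) (tgxJSubR G a) (tgxJSubR_ne_zero G a)
    (tgxPointValuation_jSubR_lt_one G τ₀ a ha).ne

theorem tgxPointPlace_ord_pos (τ₀ : ℍ) (a : 𝕜) (ha : (algebraMap 𝕜 ℂ) a = jFun τ₀) :
    0 < (tgxPointPlace G τ₀ a ha).ord (tgxJL G - algebraMap 𝕜 (TgxField G) a) := by
  rw [← tgx_algebraMap_jSubR]
  exact fracPlace_ord_pos _ _ _ _ _ _ (tgxJSubR_ne_zero G a)
    (tgxPointValuation_jSubR_lt_one G τ₀ a ha)

theorem tgxPointPlace_ord_le (τ₀ : ℍ) (a : 𝕜) (ha : (algebraMap 𝕜 ℂ) a = jFun τ₀) (n : ℕ)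
    (hn : ordAt (fun τ => jFun τ - (algebraMap 𝕜 ℂ) a) τ₀ = n) :
    (tgxPointPlace G τ₀ a ha).ord (tgxJL G - algebraMap 𝕜 (TgxField G) a) ≤ n := by
  rw [← tgx_algebraMap_jSubR]
  refine fracPlace_ord_le _ _ _ _ _ _ (tgxJSubR_ne_zero G a) ?_ (Int.natCast_nonneg n)
  rw [tgxPointValuation_apply G τ₀ (tgxJSubR_ne_zero G a), coe_tgxJSubR, hn]
  simp

/-- elements of `SL(2, ℤ)` fixing `τ₀` fix the place attached to `τ₀` -/
theorem tgxRep_smul_pointPlace (τ₀ : ℍ) (a : 𝕜) (ha : (algebraMap 𝕜 ℂ) a = jFun τ₀)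
    {γ : SL(2, ℤ)} (hγ : γ • τ₀ = τ₀) :
    tgxRep G γ • tgxPointPlace G τ₀ a ha = tgxPointPlace G τ₀ a ha := by
  refine smul_fracPlace_eq _ _ _ _ _ _ _ (fun f => ?_)
  exact fracValuation_invariant _ _ (tgxAct G γ) (tgxPointValuation_act G τ₀ hγ) f

end Fermat.Agent.T1G
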