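/-
T1G-AN (helper1), AN-GMOD part 5: the image of `SL(2, ℤ)` in the automorphism group of `TgxField G`,
the place at the cusp `∞`, and the stabilisers of the places.  Port of `Lib/T1/Dict/KMod/Stab.lean`.
-/
import Mathlib
import Fermat.Agent.Lib.T1G.GMod.Points
import Fermat.Agent.Lib.T1G.GMod.Infty
import Fermat.Agent.Lib.T1.Dict.KMod.Stab

set_option autoImplicit false
set_option linter.unusedSectionVars false
set_option linter.style.haveILetI false
set_option linter.unusedVariables false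

namespace Fermat.Agent.T1G

open Fermat.Agent.S24Lib Fermat.Agent.T1
attribute [local instance] KMod.charZero_k

open UpperHalfPlane Filter Topology Matrix MatrixGroups CongruenceSubgroup WithZero ModularGroup
open scoped Manifold
open AlgebraicCurve Fermat.Agent.Curve

variable {𝕜 : Type} [Field 𝕜] [IsAlgClosed 𝕜] [Algebra 𝕜 ℂ] {N : ℕ} [NeZero N]
  (G : TgxGens 𝕜 N)
/-! ### The image of `SL(2, ℤ)` -/

theorem tgxAct_neg (γ : SL(2, ℤ)) : tgxAct G (-γ) = tgxAct G γ := by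
  ext f : 2
  funext τ
  rw [tgxAct_apply_apply, tgxAct_apply_apply]
  have h : (-γ)⁻¹ = -γ⁻¹ := by
    rw [inv_neg]
  rw [h, ModularGroup.SL_neg_smul]

theorem tgxRep_neg (γ : SL(2, ℤ)) : tgxRep G (-γ) = tgxRep G γ := by
  show fracAlgEquivHom (L := TgxField G) (tgxAct G (-γ)) = fracAlgEquivHom (tgxAct G γ)
  rw [tgxAct_neg]

theorem tgxRep_neg_one : tgxRep G (-1) = 1 := by
  rw [tgxRep_neg, map_one]

theorem tgxRep_eq_one_of_mem_Gamma {γ : SL(2, ℤ)} (hγ : γ ∈ Gamma N) : tgxRep G γ = 1 := by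
  have h := tgx_Gamma_le_ker_act G hγ
  rw [MonoidHom.mem_ker] at h
  show fracAlgEquivHom (L := TgxField G) (tgxAct G γ) = 1
  rw [h, map_one]

theorem tgxRep_eq_one_of_level_one (h : N = 1) (γ : SL(2, ℤ)) : tgxRep G γ = 1 := by
  apply tgxRep_eq_one_of_mem_Gamma
  subst h
  rw [Gamma_one_top]
  exact Subgroup.mem_top γ

theorem tgx_mem_Gamma0_of_rep_eq_one {γ : SL(2, ℤ)} (h : tgxRep G γ = 1) : γ ∈ Gamma0 N :=
  tgx_ker_rep_le_Gamma0 G (MonoidHom.mem_ker.mpr h)

theorem tgx_orderOf_rep_S (hN : 1 < N) : orderOf (tgxRep G S) = 2 := by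
  haveI : Fact (Nat.Prime 2) := ⟨Nat.prime_two⟩
  refine orderOf_eq_prime ?_ ?_
  · rw [← map_pow, pow_two]
    have : S * S = -1 := by decide
    rw [this, tgxRep_neg_one]
  · intro h
    exact S_notMem_Gamma0 N hN (tgx_mem_Gamma0_of_rep_eq_one G h)

theorem tgx_orderOf_rep_ST (hN : 1 < N) : orderOf (tgxRep G (S * T)) = 3 := by
  haveI : Fact (Nat.Prime 3) := ⟨Nat.prime_three⟩
  refine orderOf_eq_prime ?_ ?_
  · rw [← map_pow]
    have : (S * T) ^ 3 = -1 := by decide
    rw [this, tgxRep_neg_one]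
  · intro h
    exact ST_notMem_Gamma0 N hN (tgx_mem_Gamma0_of_rep_eq_one G h)

theorem tgx_orderOf_rep_T : orderOf (tgxRep G T) = N := by
  have hN : 0 < N := Nat.pos_of_ne_zero (NeZero.ne N)
  rw [orderOf_eq_iff hN]
  constructor
  · rw [← map_pow]
    apply tgxRep_eq_one_of_mem_Gamma
    have := ModularGroup_T_pow_mem_Gamma (N : ℤ) (N : ℤ) dvd_rfl
    rw [Int.natAbs_natCast] at this
    exact_mod_cast this
  · intro m hm hm0 h
    rw [← map_pow] at h
    -- conjugate by `S`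
    have h1 : tgxRep G (S * T ^ m * S⁻¹) = 1 := by
      rw [map_mul, map_mul, h, mul_one, ← map_mul, mul_inv_cancel, map_one]
    have h2 := tgx_mem_Gamma0_of_rep_eq_one G h1
    rw [Gamma0_mem] at h2
    have h3 : (S * T ^ m * S⁻¹) 1 0 = -(m : ℤ) := by
      have h4 : (T ^ m : SL(2, ℤ)) = T ^ (m : ℤ) := (zpow_natCast T m).symm
      rw [h4]
      exact S_mul_T_zpow_mul_S_inv_apply m
    rw [h3, ZMod.intCast_zmod_eq_zero_iff_dvd] at h2
    have h5 : (N : ℤ) ∣ (m : ℤ) := (dvd_neg).mp h2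
    have h6 : N ∣ m := by exact_mod_cast h5
    exact absurd (Nat.le_of_dvd hm0 h6) (not_le.mpr hm)

theorem tgx_card_map_zpowers (g : SL(2, ℤ)) :
    Nat.card ((Subgroup.zpowers g).map (tgxRep G)) = orderOf (tgxRep G g) := by
  rw [MonoidHom.map_zpowers, Nat.card_zpowers]

theorem tgx_finite_map_rep (Δ : Subgroup SL(2, ℤ)) : Finite (Δ.map (tgxRep G)) := by
  haveI := tgx_finite_range_rep G
  exact Finite.of_injective (Subgroup.inclusion (Subgroup.map_le_range (tgxRep G) Δ))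
    (Subgroup.inclusion_injective _)

/-! ### The generators of the fixed field -/

theorem tgx_adjoin_jL_sub (a : 𝕜) :
    IntermediateField.adjoin 𝕜 {tgxJL G - algebraMap 𝕜 (TgxField G) a}
      = IntermediateField.adjoin 𝕜 {tgxJL G} := by
  apply le_antisymm
  · rw [IntermediateField.adjoin_le_iff, Set.singleton_subset_iff]
    exact sub_mem (IntermediateField.mem_adjoin_simple_self 𝕜 _)
      (IntermediateField.algebraMap_mem _ a)
  · rw [IntermediateField.adjoin_le_iff, Set.singleton_subset_iff]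
    show tgxJL G ∈ IntermediateField.adjoin 𝕜 {tgxJL G - algebraMap 𝕜 (TgxField G) a}
    have h := add_mem
      (IntermediateField.mem_adjoin_simple_self 𝕜 (tgxJL G - algebraMap 𝕜 (TgxField G) a))
      (IntermediateField.algebraMap_mem
        (IntermediateField.adjoin 𝕜 {tgxJL G - algebraMap 𝕜 (TgxField G) a}) a)
    rwa [sub_add_cancel] at h

theorem tgx_transcendental_jL_sub (a : 𝕜) :
    Transcendental 𝕜 (tgxJL G - algebraMap 𝕜 (TgxField G) a) := by
  intro h
  apply tgx_transcendental_jL G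
  have h2 : tgxJL G = (tgxJL G - algebraMap 𝕜 (TgxField G) a) + algebraMap 𝕜 (TgxField G) a := by
    ring
  rw [h2]
  exact h.add (isAlgebraic_algebraMap a)

theorem tgx_fixedField_rep_sub (a : 𝕜) :
    IntermediateField.fixedField (tgxRep G).range
      = IntermediateField.adjoin 𝕜 {tgxJL G - algebraMap 𝕜 (TgxField G) a} := by
  rw [tgx_adjoin_jL_sub, tgx_fixedField_rep]

theorem tgxJL_ne_zero : tgxJL G ≠ 0 := by
  intro h
  apply tgx_transcendental_jL G
  rw [h]
  exact isAlgebraic_zero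

theorem tgx_adjoin_jL_inv :
    IntermediateField.adjoin 𝕜 {(tgxJL G)⁻¹} = IntermediateField.adjoin 𝕜 {tgxJL G} := by
  apply le_antisymm
  · rw [IntermediateField.adjoin_le_iff, Set.singleton_subset_iff]
    exact inv_mem (IntermediateField.mem_adjoin_simple_self 𝕜 _)
  · rw [IntermediateField.adjoin_le_iff, Set.singleton_subset_iff]
    show tgxJL G ∈ IntermediateField.adjoin 𝕜 {(tgxJL G)⁻¹}
    have h := inv_mem (IntermediateField.mem_adjoin_simple_self 𝕜 (tgxJL G)⁻¹)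
    rwa [inv_inv] at h

theorem tgx_transcendental_jL_inv : Transcendental 𝕜 (tgxJL G)⁻¹ := by
  intro h
  exact tgx_transcendental_jL G (IsAlgebraic.inv_iff.mp h)

theorem tgx_fixedField_rep_inv :
    IntermediateField.fixedField (tgxRep G).range
      = IntermediateField.adjoin 𝕜 {(tgxJL G)⁻¹} := by
  rw [tgx_adjoin_jL_inv, tgx_fixedField_rep]

/-! ### Comparing the ramification index with the size of a subgroup -/

/-- it suffices to bound the ramification index by the size of `ρ(Δ)` when `N > 1` -/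
theorem tgx_ord_le_card_map (y : TgxField G) (hy : Transcendental 𝕜 y)
    (hfix : IntermediateField.fixedField (tgxRep G).range = IntermediateField.adjoin 𝕜 {y})
    (v₀ : Place 𝕜 (TgxField G)) (hv₀ : 0 < v₀.ord y) (Δ : Subgroup SL(2, ℤ)) (n : ℕ)
    (hn : v₀.ord y ≤ n) (hΔ : 1 < N → n ≤ Nat.card (Δ.map (tgxRep G))) :
    v₀.ord y ≤ Nat.card (Δ.map (tgxRep G)) := by
  haveI := tgx_finite_range_rep G
  haveI := tgx_finite_map_rep G Δ
  rcases Nat.lt_or_ge 1 N with hN | hN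
  · exact hn.trans (by exact_mod_cast hΔ hN)
  · have hN1 : N = 1 := le_antisymm hN (Nat.pos_of_ne_zero (NeZero.ne N))
    have hstab := card_stabilizer_eq_ord (tgxRep G).range y hy hfix v₀ hv₀
    haveI : Subsingleton (tgxRep G).range := ⟨by
      rintro ⟨_, γ, rfl⟩ ⟨_, δ, rfl⟩
      apply Subtype.ext
      show tgxRep G γ = tgxRep G δ
      rw [tgxRep_eq_one_of_level_one G hN1 γ, tgxRep_eq_one_of_level_one G hN1 δ]⟩
    haveI : Subsingleton {g : (tgxRep G).range // (g : TgxField G ≃ₐ[𝕜] TgxField G) • v₀ = v₀} :=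
      inferInstance
    have h1 : Nat.card {g : (tgxRep G).range //
        (g : TgxField G ≃ₐ[𝕜] TgxField G) • v₀ = v₀} ≤ 1 := Finite.card_le_one_iff_subsingleton.mpr
      inferInstance
    have h2 : 0 < Nat.card (Δ.map (tgxRep G)) := Nat.card_pos
    rw [← hstab]
    exact_mod_cast h1.trans h2

/-! ### Points of the upper half plane -/

/-- the stabilizer of the place at `τ₀`, given a subgroup `Δ` of the stabilizer of `τ₀` whose
image is at least as large as the order of vanishing of `j - j(τ₀)` -/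
theorem tgx_pointPlace_stabilizer (τ₀ : ℍ) (a : 𝕜) (ha : (algebraMap 𝕜 ℂ) a = jFun τ₀) (n : ℕ)
    (hn : ordAt (fun τ => jFun τ - (algebraMap 𝕜 ℂ) a) τ₀ = n)
    (Δ : Subgroup SL(2, ℤ)) (hΔ : ∀ δ ∈ Δ, δ • τ₀ = τ₀)
    (hcard : 1 < N → n ≤ Nat.card (Δ.map (tgxRep G))) (γ : SL(2, ℤ)) :
    tgxRep G γ • tgxPointPlace G τ₀ a ha = tgxPointPlace G τ₀ a ha
      ↔ ∃ δ ∈ Δ, tgxRep G γ = tgxRep G δ := by
  refine stabilizer_iff (tgxRep G) (tgx_finite_range_rep G)
    (tgxJL G - algebraMap 𝕜 (TgxField G) a) (tgx_transcendental_jL_sub G a)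
    (tgx_fixedField_rep_sub G a) _ (tgxPointPlace_ord_pos G τ₀ a ha) Δ
    (fun δ hδ => tgxRep_smul_pointPlace G τ₀ a ha (hΔ δ hδ)) ?_ γ
  exact tgx_ord_le_card_map G _ (tgx_transcendental_jL_sub G a) (tgx_fixedField_rep_sub G a) _
    (tgxPointPlace_ord_pos G τ₀ a ha) Δ n (tgxPointPlace_ord_le G τ₀ a ha n hn) hcard

/-! ### The cusp `∞` -/

theorem tgxJR_ne_zero : tgxJR G ≠ 0 := by
  intro h
  apply tgx_transcendental_jR G
  rw [h]
  exact isAlgebraic_zero

/-- the place of `TgxField G` at the cusp `∞` -/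
noncomputable def tgxInftyPlace : Place 𝕜 (TgxField G) :=
  fracPlace (L := TgxField G) (tgxInftyValuation G) (fun _ h => (tgxInftyValuation_eq_zero_iff G).mp h)
    (tgxInftyValuation_algebraMap_le_one G) (tgxJR G) (tgxJR_ne_zero G)
    (by rw [tgxInftyValuation_jR]; exact exp_natCast_ne_one N)

theorem tgx_fracValuation_infty_jL_inv :
    fracValuation (L := TgxField G) (tgxInftyValuation G)
      (fun _ h => (tgxInftyValuation_eq_zero_iff G).mp h) (tgxJL G)⁻¹ = exp (-(N : ℤ)) := by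
  rw [map_inv₀, tgxJL, fracValuation_algebraMap, tgxInftyValuation_jR, WithZero.exp_neg]

theorem tgxInftyPlace_ord_pos : 0 < (tgxInftyPlace G).ord (tgxJL G)⁻¹ := by
  rw [tgxInftyPlace, fracPlace, placeOfValuation_ord_pos_iff _ _ _ _ (inv_ne_zero (tgxJL_ne_zero G)),
    tgx_fracValuation_infty_jL_inv, ← exp_zero, exp_lt_exp]
  have : 0 < N := Nat.pos_of_ne_zero (NeZero.ne N)
  omega

theorem tgxInftyPlace_ord_le : (tgxInftyPlace G).ord (tgxJL G)⁻¹ ≤ N := by
  rw [tgxInftyPlace, fracPlace]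
  exact placeOfValuation_ord_le _ _ _ _ (inv_ne_zero (tgxJL_ne_zero G))
    (tgx_fracValuation_infty_jL_inv G) (Int.natCast_nonneg N)

theorem tgxRep_T_smul_inftyPlace : tgxRep G T • tgxInftyPlace G = tgxInftyPlace G := by
  refine smul_fracPlace_eq _ _ _ _ _ _ _ (fun f => ?_)
  exact fracValuation_invariant _ _ (tgxAct G T) (tgxInftyValuation_act_T G) f

theorem tgx_inftyPlace_stabilizer (γ : SL(2, ℤ)) :
    tgxRep G γ • tgxInftyPlace G = tgxInftyPlace G
      ↔ ∃ δ ∈ Subgroup.zpowers T, tgxRep G γ = tgxRep G δ := by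
  refine stabilizer_iff (tgxRep G) (tgx_finite_range_rep G)
    (tgxJL G)⁻¹ (tgx_transcendental_jL_inv G) (tgx_fixedField_rep_inv G) _ (tgxInftyPlace_ord_pos G)
    (Subgroup.zpowers T) ?_ ?_ γ
  · intro δ hδ
    have : Subgroup.zpowers T ≤ (MulAction.stabilizer (TgxField G ≃ₐ[𝕜] TgxField G)
        (tgxInftyPlace G)).comap (tgxRep G) := by
      rw [Subgroup.zpowers_le]
      exact tgxRep_T_smul_inftyPlace G
    exact this hδ
  · rw [tgx_card_map_zpowers, tgx_orderOf_rep_T]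
    exact tgxInftyPlace_ord_le G

/-! ### The four cases -/


theorem tgx_generic_stabilizer (τ₀ : ℍ) (a : 𝕜) (ha : (algebraMap 𝕜 ℂ) a = jFun τ₀) (h0 : a ≠ 0)
    (h1 : a ≠ 1728) (γ : SL(2, ℤ)) :
    tgxRep G γ • tgxPointPlace G τ₀ a ha = tgxPointPlace G τ₀ a ha
      ↔ ∃ δ ∈ (⊥ : Subgroup SL(2, ℤ)), tgxRep G γ = tgxRep G δ := by
  refine tgx_pointPlace_stabilizer G τ₀ a ha 1 ?_ ⊥ ?_ ?_ γ
  · rw [ha]
    refine ordAt_jFun_sub_of_ne τ₀ ?_ ?_
    · rw [← ha, Ne, map_eq_zero]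
      exact h0
    · rw [← ha, ← KMod.iotaC_ofNat 𝕜]
      exact fun h => h1 ((algebraMap 𝕜 ℂ).injective h)
  · intro δ hδ
    rw [Subgroup.mem_bot.mp hδ, one_smul]
  · intro _
    haveI := tgx_finite_map_rep G ⊥
    exact Nat.card_pos

theorem tgx_rho_stabilizer (γ : SL(2, ℤ)) :
    tgxRep G γ • tgxPointPlace G ellRho 0 (by rw [map_zero, jFun_ellRho])
        = tgxPointPlace G ellRho 0 (by rw [map_zero, jFun_ellRho])
      ↔ ∃ δ ∈ Subgroup.zpowers (S * T), tgxRep G γ = tgxRep G δ := by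
  refine tgx_pointPlace_stabilizer G ellRho 0 _ 3 ?_ _ (zpowers_smul_eq ST_smul_ellRho) ?_ γ
  · have : (fun τ => jFun τ - (algebraMap 𝕜 ℂ) 0) = jFun := by
      funext τ
      rw [map_zero, sub_zero]
    rw [this]
    exact ordAt_jFun_ellRho
  · intro hN
    rw [tgx_card_map_zpowers, tgx_orderOf_rep_ST G hN]

theorem tgx_I_stabilizer (γ : SL(2, ℤ)) :
    tgxRep G γ • tgxPointPlace G UpperHalfPlane.I 1728 (by rw [KMod.iotaC_ofNat 𝕜, jFun_I])
        = tgxPointPlace G UpperHalfPlane.I 1728 (by rw [KMod.iotaC_ofNat 𝕜, jFun_I])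
      ↔ ∃ δ ∈ Subgroup.zpowers S, tgxRep G γ = tgxRep G δ := by
  refine tgx_pointPlace_stabilizer G UpperHalfPlane.I 1728 _ 2 ?_ _ (zpowers_smul_eq S_smul_I) ?_ γ
  · rw [KMod.iotaC_ofNat 𝕜]
    exact ordAt_jFun_sub_I
  · intro hN
    rw [tgx_card_map_zpowers, tgx_orderOf_rep_S G hN]

end Fermat.Agent.T1G
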