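/-
T1G-AN (helper1), AN-GMOD part 7: the normalised order at the cusp places of `TgxField G` is the
order of the `q_N`-expansion.  Port of `Lib/T1/Dict/InftyOrd.lean` (+ the `q_N`-expansion on the field
from `KMod/Iso.lean`).
-/
import Mathlib
import Fermat.Agent.Lib.T1G.GMod.Stab
import Fermat.Agent.Lib.T1.Dict.InftyOrd

set_option autoImplicit false
set_option linter.unusedSectionVars false
set_option linter.style.haveILetI false
set_option linter.unusedVariables false

namespace Fermat.Agent.T1G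

open Fermat.Agent.S24Lib Fermat.Agent.T1
open UpperHalfPlane Matrix MatrixGroups CongruenceSubgroup WithZero ModularGroup
open AlgebraicCurve Fermat.Agent.Curve
attribute [local instance] KMod.charZero_k

variable {𝕜 : Type} [Field 𝕜] [IsAlgClosed 𝕜] [Algebra 𝕜 ℂ] {N : ℕ} [NeZero N]
  (G : TgxGens 𝕜 N)

/-! ### The `q_N`-expansion on `TgxField G` -/

/-- the `q_N`-expansion on the field of modular functions -/
noncomputable def tgxFieldQL : TgxField G →+* LaurentSeries ℂ :=
  IsFractionRing.lift (tgxRingQL_injective G)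

@[simp]
theorem tgxFieldQL_algebraMap (r : tgxRing G) :
    tgxFieldQL G (algebraMap (tgxRing G) (TgxField G) r) = tgxRingQL G r :=
  IsFractionRing.lift_algebraMap _ _

theorem tgxFieldQL_injective : Function.Injective (tgxFieldQL G) := RingHom.injective _

theorem tgxFieldQL_algebraMap_const (c : 𝕜) :
    tgxFieldQL G (algebraMap 𝕜 (TgxField G) c) = HahnSeries.C ((algebraMap 𝕜 ℂ) c) := by
  rw [IsScalarTower.algebraMap_apply 𝕜 (tgxRing G) (TgxField G), tgxFieldQL_algebraMap,
    tgxRingQL_algebraMap]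

/-- a subgroup stabilising a place has at most `ord` elements in its image -/
theorem tgx_card_map_le_ord (y : TgxField G) (hy : Transcendental 𝕜 y)
    (hfix : IntermediateField.fixedField (tgxRep G).range = IntermediateField.adjoin 𝕜 {y})
    (v₀ : Place 𝕜 (TgxField G)) (hv₀ : 0 < v₀.ord y) (Δ : Subgroup SL(2, ℤ))
    (hΔ : ∀ δ ∈ Δ, tgxRep G δ • v₀ = v₀) :
    (Nat.card (Δ.map (tgxRep G)) : ℤ) ≤ v₀.ord y := by
  haveI := tgx_finite_range_rep G
  haveI := tgx_finite_map_rep G Δ
  have hstab := card_stabilizer_eq_ord (tgxRep G).range y hy hfix v₀ hv₀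
  let ι : (Δ.map (tgxRep G)) →
      {g : (tgxRep G).range // (g : TgxField G ≃ₐ[𝕜] TgxField G) • v₀ = v₀} := fun x =>
    ⟨⟨x.1, Subgroup.map_le_range (tgxRep G) Δ x.2⟩, by
      obtain ⟨δ, hδ, hx⟩ := x.2
      show (x.1 : TgxField G ≃ₐ[𝕜] TgxField G) • v₀ = v₀
      rw [← hx]
      exact hΔ δ hδ⟩
  have hinj : Function.Injective ι := by
    intro a b hab
    apply Subtype.ext
    have := congrArg (fun z : {g : (tgxRep G).range //
      (g : TgxField G ≃ₐ[𝕜] TgxField G) • v₀ = v₀} =>
      ((z.1 : (tgxRep G).range) : TgxField G ≃ₐ[𝕜] TgxField G)) hab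
    exact this
  haveI : Finite {g : (tgxRep G).range //
      (g : TgxField G ≃ₐ[𝕜] TgxField G) • v₀ = v₀} := Subtype.finite
  rw [← hstab]
  exact_mod_cast Nat.card_le_card_of_injective ι hinj

/-- `j⁻¹` vanishes to order exactly `N` at the cusp `∞` of `X(N)` -/
theorem tgxInftyPlace_ord_jL_inv : (tgxInftyPlace G).ord (tgxJL G)⁻¹ = N := by
  apply le_antisymm (tgxInftyPlace_ord_le G)
  have h := tgx_card_map_le_ord G (tgxJL G)⁻¹ (tgx_transcendental_jL_inv G) (tgx_fixedField_rep_inv G)
    (tgxInftyPlace G) (tgxInftyPlace_ord_pos G) (Subgroup.zpowers T) ?_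
  · rwa [tgx_card_map_zpowers, tgx_orderOf_rep_T] at h
  · intro δ hδ
    have : Subgroup.zpowers T ≤ (MulAction.stabilizer (TgxField G ≃ₐ[𝕜] TgxField G)
        (tgxInftyPlace G)).comap (tgxRep G) := by
      rw [Subgroup.zpowers_le]
      exact tgxRep_T_smul_inftyPlace G
    exact this hδ

/-- the extended cusp valuation in terms of the `q_N`-expansion -/
theorem tgx_fracValuation_infty_eq (x : TgxField G) (hx : x ≠ 0) :
    fracValuation (L := TgxField G) (tgxInftyValuation G)
      (fun _ h => (tgxInftyValuation_eq_zero_iff G).mp h) x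
      = exp (-(tgxFieldQL G x).order) := by
  obtain ⟨a, b, hb, rfl⟩ := IsFractionRing.div_surjective (A := tgxRing G) x
  have hb0 : b ≠ 0 := nonZeroDivisors.ne_zero hb
  have ha0 : a ≠ 0 := by
    rintro rfl
    apply hx
    rw [map_zero, zero_div]
  have hqa : tgxRingQL G a ≠ 0 := (tgxRingQL_eq_zero_iff G).not.mpr ha0
  have hqb : tgxRingQL G b ≠ 0 := (tgxRingQL_eq_zero_iff G).not.mpr hb0
  rw [map_div₀, fracValuation_algebraMap, fracValuation_algebraMap, tgxInftyValuation_apply G ha0,
    tgxInftyValuation_apply G hb0, map_div₀, tgxFieldQL_algebraMap, tgxFieldQL_algebraMap,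
    ← WithZero.exp_sub]
  congr 1
  have hq : tgxRingQL G a / tgxRingQL G b ≠ 0 := div_ne_zero hqa hqb
  have h1 : (tgxRingQL G a).order
      = (tgxRingQL G a / tgxRingQL G b).order + (tgxRingQL G b).order := by
    rw [← HahnSeries.order_mul hq hqb, div_mul_cancel₀ _ hqb]
  omega

/-- **the order at the cusp `∞` is the order of the `q_N`-expansion** -/
theorem tgxInftyPlace_ord (x : TgxField G) (hx : x ≠ 0) :
    (tgxInftyPlace G).ord x = (tgxFieldQL G x).order := by
  obtain ⟨m, hm, h⟩ := placeOfValuation_ord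
    (fracValuation (L := TgxField G) (tgxInftyValuation G)
      (fun _ h => (tgxInftyValuation_eq_zero_iff G).mp h))
    (fracValuation_algebraMap_le_one _ _ (tgxInftyValuation_algebraMap_le_one G))
    ⟨algebraMap (tgxRing G) (TgxField G) (tgxJR G), by
        simpa using tgxJR_ne_zero G, by
        rw [fracValuation_algebraMap, tgxInftyValuation_jR]; exact exp_natCast_ne_one N⟩
  have hP : placeOfValuation
    (fracValuation (L := TgxField G) (tgxInftyValuation G)
      (fun _ h => (tgxInftyValuation_eq_zero_iff G).mp h))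
    (fracValuation_algebraMap_le_one _ _ (tgxInftyValuation_algebraMap_le_one G))
    ⟨algebraMap (tgxRing G) (TgxField G) (tgxJR G), by
        simpa using tgxJR_ne_zero G, by
        rw [fracValuation_algebraMap, tgxInftyValuation_jR]; exact exp_natCast_ne_one N⟩
      = tgxInftyPlace G := rfl
  rw [hP] at h
  -- `m = 1`
  have hN : 0 < N := Nat.pos_of_ne_zero (NeZero.ne N)
  have hm1 : m = 1 := by
    have h1 := h (tgxJL G)⁻¹ (inv_ne_zero (tgxJL_ne_zero G))
    rw [tgx_fracValuation_infty_jL_inv, tgxInftyPlace_ord_jL_inv] at h1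
    have h2 := exp_injective h1
    have h3 : (N : ℤ) = (m : ℤ) * N := by omega
    have h4 : (m : ℤ) = 1 := by
      have hN' : (N : ℤ) ≠ 0 := by exact_mod_cast hN.ne'
      have : (1 : ℤ) * N = (m : ℤ) * N := by rw [one_mul]; exact h3
      exact (mul_right_cancel₀ hN' this).symm
    exact_mod_cast h4
  have h1 := h x hx
  rw [tgx_fracValuation_infty_eq G x hx, hm1] at h1
  have := exp_injective h1
  push_cast at this
  omega

/-- the order at the cusp `γ∞` -/
theorem tgx_smul_inftyPlace_ord (γ : SL(2, ℤ)) (x : TgxField G) (hx : x ≠ 0) :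
    (tgxRep G γ • tgxInftyPlace G).ord x = (tgxFieldQL G (tgxRep G γ⁻¹ x)).order := by
  have h := Place.ord_smul (tgxRep G γ) (tgxInftyPlace G) (tgxRep G γ⁻¹ x)
  have h2 : tgxRep G γ (tgxRep G γ⁻¹ x) = x := by
    rw [← AlgEquiv.mul_apply, ← map_mul, mul_inv_cancel, map_one, AlgEquiv.one_apply]
  rw [h2] at h
  rw [h]
  apply tgxInftyPlace_ord
  intro h0
  apply hx
  have := congrArg (tgxRep G γ) h0
  rwa [h2, map_zero] at this

end Fermat.Agent.T1G
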