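/-
T1G-AN (helper1), AN-GMOD part 10: the `𝕜`-rational `q_N`-expansion `tgxFieldQk G : TgxField G →+* 𝕜((t))`
(`coeffMap (algebraMap 𝕜 ℂ) ∘ tgxFieldQk = tgxFieldQL`), and the comparison principle: a subfield of
`𝕜((t))` with the same image in `ℂ((t))` as `TgxField G` is isomorphic to `TgxField G`.
-/
import Mathlib
import Fermat.Agent.Lib.T1G.GMod.InftyOrd
import Fermat.Agent.Lib.T1.Dict.DescentLin
import Fermat.Agent.Lib.T1.Desc.PowDesc

set_option autoImplicit false
set_option linter.unusedSectionVars false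
set_option linter.style.haveILetI false
set_option linter.unusedVariables false

namespace Fermat.Agent.T1G

open Fermat.Agent.S24Lib Fermat.Agent.T1 ModularCurve
open UpperHalfPlane Matrix MatrixGroups CongruenceSubgroup
attribute [local instance] KMod.charZero_k

variable {𝕜 : Type} [Field 𝕜] [IsAlgClosed 𝕜] [Algebra 𝕜 ℂ] {N : ℕ} [NeZero N]
  (G : TgxGens 𝕜 N)

theorem tgx_coeffMap_injective : Function.Injective (coeffMap (algebraMap 𝕜 ℂ)) :=
  (coeffMap (algebraMap 𝕜 ℂ)).injective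

theorem tgxRingQL_mem_range (f : tgxRing G) :
    tgxRingQL G f ∈ (coeffMap (algebraMap 𝕜 ℂ)).range := by
  obtain ⟨w, hw⟩ := tdd_mem_range_coeffMap (algebraMap 𝕜 ℂ) (tgxRingQL G f)
    (fun n => (tgxRing_props G f.2).2 n)
  exact ⟨w, hw⟩

theorem tgxFieldQL_mem_range (x : TgxField G) :
    tgxFieldQL G x ∈ (coeffMap (algebraMap 𝕜 ℂ)).range := by
  obtain ⟨a, b, hb, rfl⟩ := IsFractionRing.div_surjective (A := tgxRing G) x
  obtain ⟨a', ha'⟩ := tgxRingQL_mem_range G a
  obtain ⟨b', hb'⟩ := tgxRingQL_mem_range G b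
  refine ⟨a' / b', ?_⟩
  rw [map_div₀, map_div₀, tgxFieldQL_algebraMap, tgxFieldQL_algebraMap, ha', hb']

/-- the `𝕜`-rational `q_N`-expansion, as a function -/
noncomputable def tgxFieldQkFun (x : TgxField G) : LaurentSeries 𝕜 :=
  (tgxFieldQL_mem_range G x).choose

theorem coeffMap_tgxFieldQkFun (x : TgxField G) :
    coeffMap (algebraMap 𝕜 ℂ) (tgxFieldQkFun G x) = tgxFieldQL G x :=
  (tgxFieldQL_mem_range G x).choose_spec

theorem tgxFieldQkFun_eq_iff (x : TgxField G) (w : LaurentSeries 𝕜) :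
    tgxFieldQkFun G x = w ↔ coeffMap (algebraMap 𝕜 ℂ) w = tgxFieldQL G x := by
  constructor
  · rintro rfl
    exact coeffMap_tgxFieldQkFun G x
  · intro hw
    apply tgx_coeffMap_injective
    rw [coeffMap_tgxFieldQkFun, hw]

/-- **the `𝕜`-rational `q_N`-expansion** on `TgxField G` -/
noncomputable def tgxFieldQk : TgxField G →+* LaurentSeries 𝕜 where
  toFun := tgxFieldQkFun G
  map_one' := by
    rw [tgxFieldQkFun_eq_iff, map_one, map_one]
  map_mul' a b := by
    rw [tgxFieldQkFun_eq_iff, map_mul, map_mul, coeffMap_tgxFieldQkFun, coeffMap_tgxFieldQkFun]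
  map_zero' := by
    rw [tgxFieldQkFun_eq_iff, map_zero, map_zero]
  map_add' a b := by
    rw [tgxFieldQkFun_eq_iff, map_add, map_add, coeffMap_tgxFieldQkFun, coeffMap_tgxFieldQkFun]

@[simp]
theorem coeffMap_tgxFieldQk (x : TgxField G) :
    coeffMap (algebraMap 𝕜 ℂ) (tgxFieldQk G x) = tgxFieldQL G x :=
  coeffMap_tgxFieldQkFun G x

theorem tgxFieldQk_eq_iff (x : TgxField G) (w : LaurentSeries 𝕜) :
    tgxFieldQk G x = w ↔ coeffMap (algebraMap 𝕜 ℂ) w = tgxFieldQL G x :=
  tgxFieldQkFun_eq_iff G x w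

theorem tgxFieldQk_injective : Function.Injective (tgxFieldQk G) := RingHom.injective _

theorem tgxFieldQk_algebraMap_const (c : 𝕜) :
    tgxFieldQk G (algebraMap 𝕜 (TgxField G) c) = algebraMap 𝕜 (LaurentSeries 𝕜) c := by
  rw [tgxFieldQk_eq_iff, tgxFieldQL_algebraMap_const, algebraMap_laurentSeries_eq_single,
    coeffMap_single]
  rfl

/-- the order of the `𝕜`-rational expansion is the order of the complex one -/
theorem tgxFieldQk_order (x : TgxField G) : (tgxFieldQk G x).order = (tgxFieldQL G x).order := by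
  rw [← coeffMap_tgxFieldQk, tdx_order_coeffMap]

/-- the `𝕜`-rational expansion as a `𝕜`-algebra homomorphism -/
noncomputable def tgxFieldQkAlg : TgxField G →ₐ[𝕜] LaurentSeries 𝕜 :=
  { tgxFieldQk G with commutes' := tgxFieldQk_algebraMap_const G }

@[simp]
theorem tgxFieldQkAlg_apply (x : TgxField G) : tgxFieldQkAlg G x = tgxFieldQk G x := rfl

/-- **comparison principle**: an intermediate field `F` of `𝕜((t))/𝕜` which is the range of the
`𝕜`-rational expansion is isomorphic to `TgxField G` -/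
noncomputable def tgxIsoOfRange (F : IntermediateField 𝕜 (LaurentSeries 𝕜))
    (hF : (tgxFieldQkAlg G).fieldRange = F) : TgxField G ≃ₐ[𝕜] ↥F :=
  (AlgEquiv.ofInjectiveField (tgxFieldQkAlg G)).trans (IntermediateField.equivOfEq hF)

@[simp]
theorem coe_tgxIsoOfRange (F : IntermediateField 𝕜 (LaurentSeries 𝕜))
    (hF : (tgxFieldQkAlg G).fieldRange = F) (x : TgxField G) :
    ((tgxIsoOfRange G F hF x : ↥F) : LaurentSeries 𝕜) = tgxFieldQk G x := rfl

end Fermat.Agent.T1G
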