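/-
T1G-AN (helper1), AN-GMOD part 11: the generating system of full level `M`:
the functions `j ∘ A` (`A` an integral matrix with `0 < det A ∣ M`) and the Fricke–Weber differences
`tgaNu M v w` (AN-FRICKE).
-/
import Mathlib
import Fermat.Agent.Lib.T1G.GMod.Qk
import Fermat.Agent.Lib.T1G.An.Fricke
import Fermat.Agent.Lib.T1G.Model.Galois
import Fermat.Agent.Lib.T1G.Model.Rat

set_option autoImplicit false
set_option linter.unusedSectionVars false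
set_option linter.style.haveILetI false
set_option linter.unusedVariables false

namespace Fermat.Agent.T1G

open Fermat.Agent.S24Lib Fermat.Agent.T1 ModularCurve
open UpperHalfPlane Matrix MatrixGroups CongruenceSubgroup
open Fermat.Agent.ES (IsQLaurentable qLaurent)
attribute [local instance] KMod.charZero_k

/-! ### `Γ(M)`-invariance of `j ∘ A` -/

/-- the entries of an element of `Γ(M)` -/
theorem tgx_exists_eq_one_add {M : ℕ} {g : SL(2, ℤ)} (hg : g ∈ Gamma M) :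
    ∃ X : Matrix (Fin 2) (Fin 2) ℤ, (g : Matrix (Fin 2) (Fin 2) ℤ) = 1 + (M : ℤ) • X := by
  rw [Gamma_mem] at hg
  obtain ⟨h00, h01, h10, h11⟩ := hg
  have e00 : (M : ℤ) ∣ g 0 0 - 1 := by
    rw [← ZMod.intCast_zmod_eq_zero_iff_dvd]; push_cast; rw [h00, sub_self]
  have e01 : (M : ℤ) ∣ g 0 1 := by
    rw [← ZMod.intCast_zmod_eq_zero_iff_dvd]; exact h01
  have e10 : (M : ℤ) ∣ g 1 0 := by
    rw [← ZMod.intCast_zmod_eq_zero_iff_dvd]; exact h10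
  have e11 : (M : ℤ) ∣ g 1 1 - 1 := by
    rw [← ZMod.intCast_zmod_eq_zero_iff_dvd]; push_cast; rw [h11, sub_self]
  obtain ⟨a, ha⟩ := e00
  obtain ⟨b, hb⟩ := e01
  obtain ⟨c, hc⟩ := e10
  obtain ⟨d, hd⟩ := e11
  refine ⟨!![a, b; c, d], ?_⟩
  ext i j
  fin_cases i <;> fin_cases j
  · simp [Matrix.add_apply]
    linarith
  · simp [Matrix.add_apply]
    exact hb
  · simp [Matrix.add_apply]
    exact hc
  · simp [Matrix.add_apply]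
    linarith

/-- for `g ∈ Γ(M)` and `det A ∣ M`: `A g = γ' A` with `γ' ∈ SL(2, ℤ)` -/
theorem tgx_exists_SL_mul_eq {A : Matrix (Fin 2) (Fin 2) ℤ} (hA : 0 < A.det) {M : ℕ}
    (hdvd : A.det ∣ (M : ℤ)) {g : SL(2, ℤ)} (hg : g ∈ Gamma M) :
    ∃ γ' : SL(2, ℤ), (γ' : Matrix (Fin 2) (Fin 2) ℤ) * A = A * (g : Matrix (Fin 2) (Fin 2) ℤ) := by
  obtain ⟨X, hX⟩ := tgx_exists_eq_one_add hg
  obtain ⟨c, hc⟩ := hdvd
  set B : Matrix (Fin 2) (Fin 2) ℤ := 1 + c • (A * X * A.adjugate) with hB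
  have hBA : B * A = A * (g : Matrix (Fin 2) (Fin 2) ℤ) := by
    rw [hB, hX, Matrix.add_mul, Matrix.one_mul, Matrix.mul_add, Matrix.mul_one, Matrix.smul_mul,
      Matrix.mul_assoc (A * X), Matrix.adjugate_mul, Matrix.mul_smul, Matrix.mul_one, smul_smul,
      Matrix.mul_smul, hc, mul_comm c]
  have hdet : B.det = 1 := by
    have h1 : B.det * A.det = A.det * 1 := by
      rw [← Matrix.det_mul, hBA, Matrix.det_mul, g.det_coe]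
    have h2 : A.det * B.det = A.det * 1 := by rw [mul_comm]; exact h1
    exact mul_left_cancel₀ hA.ne' h2
  exact ⟨⟨B, hdet⟩, hBA⟩

theorem tgx_jMat_mul_Gamma {A : Matrix (Fin 2) (Fin 2) ℤ} (hA : 0 < A.det) {M : ℕ}
    (hdvd : A.det ∣ (M : ℤ)) {g : SL(2, ℤ)} (hg : g ∈ Gamma M) :
    jMat (A * (g : Matrix (Fin 2) (Fin 2) ℤ)) (det_mul_SL_pos hA g) = jMat A hA := by
  obtain ⟨γ', hγ'⟩ := tgx_exists_SL_mul_eq hA hdvd hg
  rw [jMat_congr hγ'.symm (det_mul_SL_pos hA g) (det_SL_mul_pos γ' hA), jMat_SL_mul]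


/-! ### The primitive root of unity -/

section Zeta

variable (𝕜 : Type) [Field 𝕜] [IsAlgClosed 𝕜] [Algebra 𝕜 ℂ] (M : ℕ) [NeZero M]

theorem tgaZeta_mem_kImg : tgaZeta M ∈ KMod.kImg 𝕜 := by
  have hM : (0 : ℤ) < (M : ℤ) := by exact_mod_cast Nat.pos_of_ne_zero (NeZero.ne M)
  have h := KMod.exp_two_pi_mul_div_mem_kImg 𝕜 1 (M : ℤ) hM
  have e : (2 * Real.pi * Complex.I * ((1 : ℤ) : ℂ) / ((M : ℤ) : ℂ)) = 2 * Real.pi * Complex.I / M := by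
    push_cast; ring
  rw [e] at h
  exact h

theorem tgaZeta_isPrimitiveRoot : IsPrimitiveRoot (tgaZeta M) M :=
  Complex.isPrimitiveRoot_exp M (NeZero.ne M)

/-- the primitive `M`-th root of unity of `𝕜` mapping to `exp (2πi/M)` -/
noncomputable def tgxZeta : 𝕜ˣ :=
  Units.mk0 (tgaZeta_mem_kImg 𝕜 M).choose (by
    intro h0
    have h := (tgaZeta_mem_kImg 𝕜 M).choose_spec
    rw [h0, map_zero] at h
    exact tgaZeta_ne_zero M h.symm)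

theorem algebraMap_tgxZeta : algebraMap 𝕜 ℂ ((tgxZeta 𝕜 M : 𝕜ˣ) : 𝕜) = tgaZeta M :=
  (tgaZeta_mem_kImg 𝕜 M).choose_spec

theorem map_tgxZeta :
    Units.map ((algebraMap 𝕜 ℂ : 𝕜 →+* ℂ) : 𝕜 →* ℂ) (tgxZeta 𝕜 M) = tgaZetaU M := by
  apply Units.ext
  rw [Units.coe_map, coe_tgaZetaU]
  exact algebraMap_tgxZeta 𝕜 M

theorem tgxZeta_isPrimitiveRoot : IsPrimitiveRoot (tgxZeta 𝕜 M) M := by
  have h1 : IsPrimitiveRoot ((tgxZeta 𝕜 M : 𝕜ˣ) : 𝕜) M := by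
    refine IsPrimitiveRoot.of_map_of_injective (f := algebraMap 𝕜 ℂ) ?_ (algebraMap 𝕜 ℂ).injective
    rw [algebraMap_tgxZeta]
    exact tgaZeta_isPrimitiveRoot M
  exact IsPrimitiveRoot.coe_units_iff.mp h1

theorem tgxZeta_pow : tgxZeta 𝕜 M ^ M = 1 := (tgxZeta_isPrimitiveRoot 𝕜 M).pow_eq_one

end Zeta

/-! ### The generating system -/

section Gens

variable (𝕜 : Type) [Field 𝕜] [IsAlgClosed 𝕜] [Algebra 𝕜 ℂ] (M : ℕ) [NeZero M]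

/-- the functions `j ∘ A`, `0 < det A ∣ M` -/
def tgxJMatSet : Set (ℍ → ℂ) :=
  {f | ∃ (A : Matrix (Fin 2) (Fin 2) ℤ) (hA : 0 < A.det), A.det ∣ (M : ℤ) ∧ f = jMat A hA}

/-- the Fricke–Weber differences -/
def tgxNuSet : Set (ℍ → ℂ) :=
  {f | ∃ v w : ZMod M × ZMod M, v ≠ 0 ∧ w ≠ 0 ∧ f = tgaNu M v w}

theorem tgx_unit_cond {v : ZMod M × ZMod M} (hv : v ≠ 0) :
    v.1 = 0 → IsUnit (1 - ((tgZ 𝕜 M (tgxZeta 𝕜 M) v.2 : 𝕜ˣ) : 𝕜)) := by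
  intro h1
  apply tgr_isUnit_one_sub (tgxZeta_isPrimitiveRoot 𝕜 M)
  intro h2
  exact hv (Prod.ext h1 h2)

/-- the Laurent expansion of `tgaNu M v w` has coefficients in `𝕜` -/
theorem tgx_qLaurent_tgaNu {v w : ZMod M × ZMod M} (hv : v ≠ 0) (hw : w ≠ 0) :
    qLaurent M (tgaNu M v w)
      = coeffMap (algebraMap 𝕜 ℂ) (tgNu 𝕜 M (tgxZeta 𝕜 M) v w) := by
  rw [tga_qLaurent_tgaNu hv hw, coeffMap_tgNu (algebraMap 𝕜 ℂ) M (tgxZeta 𝕜 M) v w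
    (tgx_unit_cond 𝕜 M hv) (tgx_unit_cond 𝕜 M hw), map_tgxZeta]

theorem tgx_slAct_tgaNu (γ : SL(2, ℤ)) (v w : ZMod M × ZMod M) :
    KMod.slAct 𝕜 γ (tgaNu M v w) = tgaNu M (tgAct M γ⁻¹ v) (tgAct M γ⁻¹ w) := by
  funext τ
  rw [KMod.slAct_apply, tgaNu_smul]

theorem tgAct_of_mem_Gamma {γ : SL(2, ℤ)} (hγ : γ ∈ Gamma M) (v : ZMod M × ZMod M) :
    tgAct M γ v = v := by
  rw [Gamma_mem] at hγ
  obtain ⟨h00, h01, h10, h11⟩ := hγ
  rw [tgAct, h00, h01, h10, h11]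
  ext <;> simp

/-- **the generating system of full level `M`** -/
noncomputable def tgxFull : TgxGens 𝕜 M where
  gens := tgxJMatSet M ∪ tgxNuSet M
  jgen_mem := by
    rintro f ⟨d, hd, γ, rfl⟩
    refine Or.inl ⟨_, det_diagMat_mul_pos d γ, ?_, rfl⟩
    rw [det_diagMat_mul]
    exact_mod_cast hd
  laur := by
    rintro g (⟨A, hA, hdvd, rfl⟩ | ⟨v, w, hv, hw, rfl⟩)
    · exact (KMod.isQLaurentable_jMat 𝕜 M A hA hdvd).1
    · exact tga_isQLaurentable_tgaNu hv hw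
  rat := by
    rintro g (⟨A, hA, hdvd, rfl⟩ | ⟨v, w, hv, hw, rfl⟩)
    · exact (KMod.isQLaurentable_jMat 𝕜 M A hA hdvd).2
    · rw [tgx_qLaurent_tgaNu 𝕜 M hv hw]
      intro m
      rw [coeffMap_coeff]
      exact ⟨_, rfl⟩
  act_mem := by
    rintro γ g (⟨A, hA, hdvd, rfl⟩ | ⟨v, w, hv, hw, rfl⟩)
    · refine Or.inl ⟨_, det_mul_SL_pos hA γ⁻¹, ?_, KMod.slAct_jMat 𝕜 γ A hA⟩
      rw [Matrix.det_mul, (γ⁻¹).det_coe, mul_one]
      exact hdvd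
    · exact Or.inr ⟨_, _, tgAct_ne_zero M γ⁻¹ hv, tgAct_ne_zero M γ⁻¹ hw, tgx_slAct_tgaNu 𝕜 M γ v w⟩
  gamma_inv := by
    rintro γ hγ g (⟨A, hA, hdvd, rfl⟩ | ⟨v, w, hv, hw, rfl⟩)
    · rw [KMod.slAct_jMat 𝕜 γ A hA]
      exact tgx_jMat_mul_Gamma hA hdvd (inv_mem hγ)
    · rw [tgx_slAct_tgaNu, tgAct_of_mem_Gamma M (inv_mem hγ), tgAct_of_mem_Gamma M (inv_mem hγ)]

theorem tgaNu_mem_tgxFull {v w : ZMod M × ZMod M} (hv : v ≠ 0) (hw : w ≠ 0) :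
    tgaNu M v w ∈ (tgxFull 𝕜 M).gens := Or.inr ⟨v, w, hv, hw, rfl⟩

theorem jMat_mem_tgxFull {A : Matrix (Fin 2) (Fin 2) ℤ} (hA : 0 < A.det)
    (hdvd : A.det ∣ (M : ℤ)) : jMat A hA ∈ (tgxFull 𝕜 M).gens := Or.inl ⟨A, hA, hdvd, rfl⟩

end Gens

end Fermat.Agent.T1G
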