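/-
T1G-AN (helper1), AN-GMOD part 12: the `q_M`-expansions of the functions `j ∘ A`, `det A ∣ M`, are
exactly the elements of helper6's `tgJSet` (the series `j(ζ^c t^e)`).
-/
import Mathlib
import Fermat.Agent.Lib.T1G.GMod.Full

set_option autoImplicit false
set_option linter.unusedSectionVars false
set_option linter.style.haveILetI false
set_option linter.unusedVariables false

namespace Fermat.Agent.T1G

open Fermat.Agent.S24Lib Fermat.Agent.T1 ModularCurve
open UpperHalfPlane Matrix MatrixGroups CongruenceSubgroup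
open Fermat.Agent.ES (IsQLaurentable qLaurent)
open Fermat.Agent.Igusa (lsTwist lsTwist_coeff)

variable (M : ℕ) [NeZero M]

/-- the coefficients of `j(ζ^c t^e)` -/
theorem tgJc_coeff {R : Type*} [CommRing R] (ζ : Rˣ) (c e : ℕ) [NeZero e] (m : ℤ) :
    (tgJc R ζ c e).coeff m =
      if (e : ℤ) ∣ m then (((ζ ^ c) ^ (m / e) : Rˣ) : R) * (jqModC R).coeff (m / e) else 0 := by
  rw [tgJc, dif_neg (NeZero.ne e)]
  split_ifs with hdvd
  · obtain ⟨k, rfl⟩ := hdvd
    have he : (e : ℤ) ≠ 0 := by exact_mod_cast NeZero.ne e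
    rw [qExpand_coeff_mul, Int.mul_ediv_cancel_left k he, lsTwist_coeff]
  · exact qExpand_coeff_of_not_dvd e _ hdvd

/-- powers of `exp(2πi/M)` -/
theorem tgaZeta_pow_eq (c : ℕ) :
    tgaZeta M ^ c = Complex.exp (2 * Real.pi * Complex.I * c / M) := by
  rw [tgaZeta, ← Complex.exp_nat_mul]
  congr 1
  ring

/-- **the `q_M`-expansion of `j((aτ + b)/d)`, `ad ∣ M`** -/
theorem tgx_qLaurent_jMat_upper (a b d : ℤ) (ha : 0 < a) (hd : 0 < d)
    (hU : 0 < (!![a, b; 0, d] : Matrix (Fin 2) (Fin 2) ℤ).det) (hdvd : a * d ∣ (M : ℤ)) :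
    qLaurent M (jMat !![a, b; 0, d] hU)
      = tgJc ℂ (tgaZetaU M) (M / d.toNat * (b % d).toNat) (M / d.toNat * a.toNat) := by
  have hMpos : 0 < M := Nat.pos_of_ne_zero (NeZero.ne M)
  have hda : (d.toNat : ℤ) = d := Int.toNat_of_nonneg hd.le
  have haa : (a.toNat : ℤ) = a := Int.toNat_of_nonneg ha.le
  have hbb : (((b % d).toNat : ℕ) : ℤ) = b % d := Int.toNat_of_nonneg (Int.emod_nonneg b hd.ne')
  have hdM : d ∣ (M : ℤ) := Dvd.dvd.trans ⟨a, mul_comm a d⟩ hdvd
  have hdM' : d.toNat ∣ M := by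
    have : (d.toNat : ℤ) ∣ (M : ℤ) := by rw [hda]; exact hdM
    exact_mod_cast this
  obtain ⟨k, hk⟩ := hdM'
  have hdpos : 0 < d.toNat := by omega
  have hkpos : 0 < k := by
    rcases Nat.eq_zero_or_pos k with h0 | h0
    · rw [h0, mul_zero] at hk; omega
    · exact h0
  have hdiv : M / d.toNat = k := by rw [hk]; exact Nat.mul_div_cancel_left k hdpos
  have hapos : 0 < a.toNat := by omega
  set e : ℕ := M / d.toNat * a.toNat with he
  haveI : NeZero e := ⟨by rw [he, hdiv]; exact (Nat.mul_pos hkpos hapos).ne'⟩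
  have hed : (e : ℤ) * d = M * a := by
    rw [he, hdiv, hk]
    push_cast
    rw [haa, hda]
    ring
  ext m
  have h1 := (qLaurent_jFun_comp_upper a b d ha hd hU M e hed).2 m
  have h2 : (qLaurent M (jMat !![a, b; 0, d] hU)).coeff m
      = (qLaurent M (fun τ => jFun (Fermat.Agent.S22Lib.intGL !![a, b; 0, d] hU • τ))).coeff m := rfl
  rw [h2, h1, tgJc_coeff]
  split_ifs with hdvd'
  · congr 1
    rw [Units.val_zpow_eq_zpow_val, Units.val_pow_eq_pow_val, coe_tgaZetaU, tgaZeta_pow_eq]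
    congr 1
    -- the two roots of unity agree
    have hdC : (d : ℂ) ≠ 0 := by exact_mod_cast hd.ne'
    have hMC : (M : ℂ) ≠ 0 := by exact_mod_cast hMpos.ne'
    obtain ⟨t, ht⟩ : ∃ t : ℤ, b = b % d + d * t := ⟨b / d, (Int.emod_add_mul_ediv b d).symm⟩
    have e1 : (2 * Real.pi * Complex.I * (b : ℂ) / d)
        = 2 * Real.pi * Complex.I * ((b % d : ℤ) : ℂ) / d + t * (2 * Real.pi * Complex.I) := by
      conv_lhs => rw [ht]
      push_cast
      field_simp
    have e2 : (2 * Real.pi * Complex.I * ((M / d.toNat * (b % d).toNat : ℕ) : ℂ) / M)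
        = 2 * Real.pi * Complex.I * ((b % d : ℤ) : ℂ) / d := by
      rw [hdiv]
      have hM' : (M : ℂ) = (d : ℂ) * k := by
        have : ((M : ℕ) : ℤ) = d * k := by rw [hk]; push_cast; rw [hda]
        exact_mod_cast this
      have hkC : (k : ℂ) ≠ 0 := by exact_mod_cast hkpos.ne'
      have hb' : (((b % d).toNat : ℕ) : ℂ) = ((b % d : ℤ) : ℂ) := by exact_mod_cast hbb
      push_cast
      rw [hb', hM']
      field_simp
    rw [e1, e2, Complex.exp_add, Complex.exp_int_mul_two_pi_mul_I, mul_one]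
  · rfl

/-- the expansion of every `j ∘ A`, `det A ∣ M`, is in `tgJSet` -/
theorem tgx_qLaurent_jMat_mem (A : Matrix (Fin 2) (Fin 2) ℤ) (hA : 0 < A.det)
    (hdvd : A.det ∣ (M : ℤ)) :
    ∃ a' d' b' : ℕ, a' * d' ∣ M ∧ b' < d' ∧
      qLaurent M (jMat A hA) = tgJc ℂ (tgaZetaU M) (M / d' * b') (M / d' * a') := by
  obtain ⟨a, b, d, ha, hd, hU, hdet, heq⟩ := jMat_eq_upper A hA
  have hda : (d.toNat : ℤ) = d := Int.toNat_of_nonneg hd.le
  have haa : (a.toNat : ℤ) = a := Int.toNat_of_nonneg ha.le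
  refine ⟨a.toNat, d.toNat, (b % d).toNat, ?_, ?_, ?_⟩
  · have : ((a.toNat * d.toNat : ℕ) : ℤ) ∣ (M : ℤ) := by
      push_cast
      rw [haa, hda, ← hdet]
      exact hdvd
    exact_mod_cast this
  · have h1 : b % d < d := Int.emod_lt_of_pos b hd
    have h2 : 0 ≤ b % d := Int.emod_nonneg b hd.ne'
    omega
  · rw [heq]
    exact tgx_qLaurent_jMat_upper M a b d ha hd hU (by rw [← hdet]; exact hdvd)

/-- every element of `tgJSet` is the expansion of some `j ∘ A`, `det A ∣ M` -/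
theorem tgx_exists_jMat_of_tgJc {a' d' b' : ℕ} (hdvd : a' * d' ∣ M) (hb : b' < d') :
    ∃ (A : Matrix (Fin 2) (Fin 2) ℤ) (hA : 0 < A.det), A.det ∣ (M : ℤ) ∧
      qLaurent M (jMat A hA) = tgJc ℂ (tgaZetaU M) (M / d' * b') (M / d' * a') := by
  have hMpos : 0 < M := Nat.pos_of_ne_zero (NeZero.ne M)
  have hd' : 0 < d' := by omega
  have ha' : 0 < a' := by
    rcases Nat.eq_zero_or_pos a' with h0 | h0
    · rw [h0, zero_mul, zero_dvd_iff] at hdvd
      omega
    · exact h0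
  have hU : 0 < (!![(a' : ℤ), (b' : ℤ); 0, (d' : ℤ)] : Matrix (Fin 2) (Fin 2) ℤ).det := by
    rw [Fermat.Agent.S22Lib.upper_det]
    positivity
  have hdvdZ : (a' : ℤ) * (d' : ℤ) ∣ (M : ℤ) := by exact_mod_cast hdvd
  refine ⟨_, hU, ?_, ?_⟩
  · rw [Fermat.Agent.S22Lib.upper_det]
    exact hdvdZ
  · rw [tgx_qLaurent_jMat_upper M (a' : ℤ) (b' : ℤ) (d' : ℤ) (by exact_mod_cast ha')
      (by exact_mod_cast hd') hU hdvdZ]
    have h1 : ((b' : ℤ) % (d' : ℤ)).toNat = b' := by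
      rw [Int.emod_eq_of_lt (by positivity) (by exact_mod_cast hb)]
      simp
    rw [h1]
    simp

end Fermat.Agent.T1G
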