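/-
T1G-AN (helper1), AN-GMOD part 13: the analytic model of full level `M` is helper6's formal full
level field: `tgxFullIso 𝕜 M : TgxField (tgxFull 𝕜 M) ≃ₐ[𝕜] ↥(tgFull 𝕜 M (tgxZeta 𝕜 M))`, given by the
`𝕜`-rational `q_M`-expansion.
-/
import Mathlib
import Fermat.Agent.Lib.T1G.GMod.FullJ

set_option autoImplicit false
set_option linter.unusedSectionVars false
set_option linter.style.haveILetI false
set_option linter.unusedVariables false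

namespace Fermat.Agent.T1G

open Fermat.Agent.S24Lib Fermat.Agent.T1 ModularCurve
open UpperHalfPlane Matrix MatrixGroups CongruenceSubgroup
open Fermat.Agent.ES (IsQLaurentable qLaurent)
open Fermat.Agent.Igusa (lsTwist lsTwist_coeff)
attribute [local instance] KMod.charZero_k

variable (𝕜 : Type) [Field 𝕜] [IsAlgClosed 𝕜] [Algebra 𝕜 ℂ] (M : ℕ) [NeZero M]

/-- the expansion of `j(ζ^c t^e)` over `ℂ` is the base change of the one over `𝕜` -/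
theorem tgx_coeffMap_tgJc (c e : ℕ) :
    coeffMap (algebraMap 𝕜 ℂ) (tgJc 𝕜 (tgxZeta 𝕜 M) c e) = tgJc ℂ (tgaZetaU M) c e := by
  rw [coeffMap_tgJc, map_tgxZeta]

/-- the `𝕜`-rational expansion of a generator `tgaNu M v w` -/
theorem tgxFieldQk_nu {v w : ZMod M × ZMod M} (hv : v ≠ 0) (hw : w ≠ 0) :
    tgxFieldQk (tgxFull 𝕜 M) (tgxOfGen (tgxFull 𝕜 M) (tgaNu_mem_tgxFull 𝕜 M hv hw))
      = tgNu 𝕜 M (tgxZeta 𝕜 M) v w := by
  rw [tgxFieldQk_eq_iff, tgxOfGen, tgxFieldQL_algebraMap, tgxRingQL_apply]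
  exact (tgx_qLaurent_tgaNu 𝕜 M hv hw).symm

/-- the `𝕜`-rational expansion of a generator `j ∘ A` -/
theorem tgxFieldQk_jMat_mem {A : Matrix (Fin 2) (Fin 2) ℤ} (hA : 0 < A.det)
    (hdvd : A.det ∣ (M : ℤ)) :
    tgxFieldQk (tgxFull 𝕜 M) (tgxOfGen (tgxFull 𝕜 M) (jMat_mem_tgxFull 𝕜 M hA hdvd))
      ∈ tgJSet 𝕜 M (tgxZeta 𝕜 M) := by
  obtain ⟨a', d', b', h1, h2, h3⟩ := tgx_qLaurent_jMat_mem M A hA hdvd
  refine ⟨a', d', b', h1, h2, ?_⟩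
  rw [tgxFieldQk_eq_iff, tgxOfGen, tgxFieldQL_algebraMap, tgxRingQL_apply, tgx_coeffMap_tgJc]
  exact h3.symm

/-- every element of `tgJSet` is the expansion of a generator -/
theorem tgx_exists_gen_of_mem_tgJSet {y : LaurentSeries 𝕜} (hy : y ∈ tgJSet 𝕜 M (tgxZeta 𝕜 M)) :
    ∃ (g : ℍ → ℂ) (hg : g ∈ (tgxFull 𝕜 M).gens),
      tgxFieldQk (tgxFull 𝕜 M) (tgxOfGen (tgxFull 𝕜 M) hg) = y := by
  obtain ⟨a', d', b', h1, h2, rfl⟩ := hy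
  obtain ⟨A, hA, hdvd, hq⟩ := tgx_exists_jMat_of_tgJc M h1 h2
  refine ⟨_, jMat_mem_tgxFull 𝕜 M hA hdvd, ?_⟩
  rw [tgxFieldQk_eq_iff, tgxOfGen, tgxFieldQL_algebraMap, tgxRingQL_apply, tgx_coeffMap_tgJc]
  exact hq.symm

/-- the expansions of the elements of the ring lie in the base change of the formal field -/
theorem tgx_qLaurent_mem_map {f : ℍ → ℂ} (hf : f ∈ tgxRing (tgxFull 𝕜 M)) :
    qLaurent M f ∈ (tgFull 𝕜 M (tgxZeta 𝕜 M)).toSubfield.map (coeffMap (algebraMap 𝕜 ℂ)) := by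
  induction hf using Algebra.adjoin_induction with
  | mem f hf =>
    rcases hf with ⟨A, hA, hdvd, rfl⟩ | ⟨v, w, hv, hw, rfl⟩
    · obtain ⟨a', d', b', h1, h2, h3⟩ := tgx_qLaurent_jMat_mem M A hA hdvd
      exact ⟨_, tgJc_mem_tgFull 𝕜 M (tgxZeta 𝕜 M) h1 h2, by rw [h3, tgx_coeffMap_tgJc]⟩
    · exact ⟨_, tgNu_mem_tgFull 𝕜 M (tgxZeta 𝕜 M) hv hw, (tgx_qLaurent_tgaNu 𝕜 M hv hw).symm⟩
  | algebraMap c =>
    refine ⟨algebraMap 𝕜 (LaurentSeries 𝕜) c, (tgFull 𝕜 M (tgxZeta 𝕜 M)).algebraMap_mem c, ?_⟩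
    have : (algebraMap 𝕜 (ℍ → ℂ) c) = fun _ => (algebraMap 𝕜 ℂ) c := rfl
    rw [this, Fermat.Agent.ES.qLaurent_const, algebraMap_laurentSeries_eq_single, coeffMap_single]
    rfl
  | add f g hf hg ihf ihg =>
    have : qLaurent M (f + g) = qLaurent M f + qLaurent M g :=
      Fermat.Agent.ES.qLaurent_add (tgxRing_props (tgxFull 𝕜 M) hf).1
        (tgxRing_props (tgxFull 𝕜 M) hg).1
    rw [this]
    exact add_mem ihf ihg
  | mul f g hf hg ihf ihg =>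
    have : qLaurent M (f * g) = qLaurent M f * qLaurent M g :=
      Fermat.Agent.ES.qLaurent_mul (tgxRing_props (tgxFull 𝕜 M) hf).1
        (tgxRing_props (tgxFull 𝕜 M) hg).1
    rw [this]
    exact mul_mem ihf ihg

theorem tgxFieldQk_mem_tgFull (x : TgxField (tgxFull 𝕜 M)) :
    tgxFieldQk (tgxFull 𝕜 M) x ∈ tgFull 𝕜 M (tgxZeta 𝕜 M) := by
  obtain ⟨a, b, hb, rfl⟩ := IsFractionRing.div_surjective (A := tgxRing (tgxFull 𝕜 M)) x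
  have h1 : tgxFieldQL (tgxFull 𝕜 M)
      (algebraMap (tgxRing (tgxFull 𝕜 M)) (TgxField (tgxFull 𝕜 M)) a /
        algebraMap (tgxRing (tgxFull 𝕜 M)) (TgxField (tgxFull 𝕜 M)) b)
      ∈ (tgFull 𝕜 M (tgxZeta 𝕜 M)).toSubfield.map (coeffMap (algebraMap 𝕜 ℂ)) := by
    rw [map_div₀, tgxFieldQL_algebraMap, tgxFieldQL_algebraMap]
    exact div_mem (tgx_qLaurent_mem_map 𝕜 M a.2) (tgx_qLaurent_mem_map 𝕜 M b.2)
  obtain ⟨w, hw, hwx⟩ := h1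
  rw [(tgxFieldQk_eq_iff _ _ w).mpr hwx]
  exact hw

/-- **the range of the `𝕜`-rational expansion is the formal full level field** -/
theorem tgxFull_fieldRange :
    (tgxFieldQkAlg (tgxFull 𝕜 M)).fieldRange = tgFull 𝕜 M (tgxZeta 𝕜 M) := by
  apply le_antisymm
  · rintro _ ⟨x, rfl⟩
    exact tgxFieldQk_mem_tgFull 𝕜 M x
  · rw [tgFull, IntermediateField.adjoin_le_iff]
    rintro y (hy | ⟨v, w, hv, hw, rfl⟩)
    · obtain ⟨g, hg, hgy⟩ := tgx_exists_gen_of_mem_tgJSet 𝕜 M hy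
      exact ⟨_, hgy⟩
    · exact ⟨_, tgxFieldQk_nu 𝕜 M hv hw⟩

/-- **the analytic model of full level is the formal full level field** -/
noncomputable def tgxFullIso :
    TgxField (tgxFull 𝕜 M) ≃ₐ[𝕜] ↥(tgFull 𝕜 M (tgxZeta 𝕜 M)) :=
  tgxIsoOfRange (tgxFull 𝕜 M) _ (tgxFull_fieldRange 𝕜 M)

@[simp]
theorem coe_tgxFullIso (x : TgxField (tgxFull 𝕜 M)) :
    ((tgxFullIso 𝕜 M x : ↥(tgFull 𝕜 M (tgxZeta 𝕜 M))) : LaurentSeries 𝕜)
      = tgxFieldQk (tgxFull 𝕜 M) x := rfl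

theorem tgxFullIso_eq_iff (x : TgxField (tgxFull 𝕜 M)) (y : ↥(tgFull 𝕜 M (tgxZeta 𝕜 M))) :
    tgxFullIso 𝕜 M x = y ↔ coeffMap (algebraMap 𝕜 ℂ) (y : LaurentSeries 𝕜)
      = tgxFieldQL (tgxFull 𝕜 M) x := by
  rw [← tgxFieldQk_eq_iff, ← coe_tgxFullIso]
  exact Subtype.ext_iff

/-- the complex expansion through the isomorphism -/
theorem coeffMap_tgxFullIso (x : TgxField (tgxFull 𝕜 M)) :
    coeffMap (algebraMap 𝕜 ℂ) ((tgxFullIso 𝕜 M x : ↥(tgFull 𝕜 M (tgxZeta 𝕜 M))) : LaurentSeries 𝕜)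
      = tgxFieldQL (tgxFull 𝕜 M) x := by
  rw [coe_tgxFullIso, coeffMap_tgxFieldQk]

theorem tgxFullIso_nu {v w : ZMod M × ZMod M} (hv : v ≠ 0) (hw : w ≠ 0) :
    tgxFullIso 𝕜 M (tgxOfGen (tgxFull 𝕜 M) (tgaNu_mem_tgxFull 𝕜 M hv hw))
      = tgNuE 𝕜 M (tgxZeta 𝕜 M) hv hw :=
  Subtype.ext (tgxFieldQk_nu 𝕜 M hv hw)

end Fermat.Agent.T1G
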