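/-
T1G-AN (helper1), AN-GMOD part 14: **the Galois package at full level, from the analytic model**:
`tgGalois_an 𝕜 M : TgGalois 𝕜 M (tgxZeta 𝕜 M)` (helper6's interface) for every algebraically closed
field `𝕜 ⊆ ℂ` (in particular `𝕜 = ℚ̄` and `𝕜 = ℂ`).
-/
import Mathlib
import Fermat.Agent.Lib.T1G.GMod.FullIso
import Fermat.Agent.Lib.T1.Dict.KMod.Iso

set_option autoImplicit false
set_option linter.unusedSectionVars false
set_option linter.style.haveILetI false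
set_option linter.unusedVariables false

namespace Fermat.Agent.T1G

open Fermat.Agent.S24Lib Fermat.Agent.T1 ModularCurve
open UpperHalfPlane Matrix MatrixGroups CongruenceSubgroup
open Fermat.Agent.ES (IsQLaurentable qLaurent)
open Fermat.Agent.Igusa (lsTwist lsTwist_coeff)
attribute [local instance] KMod.charZero_k

/-- the image of a simple extension under an isomorphism -/
theorem tgx_mem_adjoin_simple_map {K A B : Type*} [Field K] [Field A] [Field B] [Algebra K A]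
    [Algebra K B] (e : A ≃ₐ[K] B) (a y : A) (hy : y ∈ IntermediateField.adjoin K {a}) :
    e y ∈ IntermediateField.adjoin K {e a} := by
  have h := IntermediateField.adjoin_map K {a} (e : A →ₐ[K] B)
  rw [Set.image_singleton] at h
  have h2 : (e : A →ₐ[K] B) a = e a := rfl
  rw [h2] at h
  rw [← h]
  exact ⟨y, hy, rfl⟩

section Generic

variable {𝕜 : Type} [Field 𝕜] [IsAlgClosed 𝕜] [Algebra 𝕜 ℂ] {N : ℕ} [NeZero N]
  (G : TgxGens 𝕜 N)

theorem tgxFieldQL_jL : tgxFieldQL G (tgxJL G) = qExpand ℂ N (jqModC ℂ) := by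
  rw [tgxJL, tgxFieldQL_algebraMap, tgxRingQL_jR]

theorem tgxFieldQL_jGenL_one {d : ℕ+} (hd : (d : ℕ) ∣ N) :
    tgxFieldQL G (tgxJGenL G hd 1) = qExpand ℂ N (qExpand ℂ d (jqModC ℂ)) := by
  rw [tgxJGenL, tgxFieldQL_algebraMap]
  exact @KMod.modRingQL_jGenR_one 𝕜 _ _ _ DivisionRing.toRatAlgebra N _ d hd

/-- the expansion of `f(τ + 1)`: the substitution `t ↦ ζ t` -/
theorem tgxFieldQL_rep_T_inv (x : TgxField G) :
    tgxFieldQL G (tgxRep G ModularGroup.T⁻¹ x) = lsTwist (tgaZetaU N) (tgxFieldQL G x) := by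
  have h : (tgxFieldQL G).comp ((tgxRep G ModularGroup.T⁻¹ : TgxField G ≃ₐ[𝕜] TgxField G) :
        TgxField G →+* TgxField G)
      = (lsTwist (tgaZetaU N)).comp (tgxFieldQL G) := by
    apply IsLocalization.ringHom_ext (nonZeroDivisors (tgxRing G))
    ext r : 1
    simp only [RingHom.comp_apply, RingHom.coe_coe]
    rw [tgxRep_algebraMap, tgxFieldQL_algebraMap, tgxFieldQL_algebraMap, tgxRingQL_apply,
      tgxRingQL_apply]
    have hfun : ((tgxAct G ModularGroup.T⁻¹ r : tgxRing G) : ℍ → ℂ)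
        = fun z => (r : ℍ → ℂ) ((1 : ℝ) +ᵥ z) := by
      funext z
      rw [tgxAct_apply_apply, inv_inv, UpperHalfPlane.modular_T_smul]
    rw [hfun]
    ext m
    rw [(Fermat.Agent.ES.qLaurent_vadd (tgxRing_props G r.2).1 1).2 m, lsTwist_coeff,
      Units.val_zpow_eq_zpow_val, coe_tgaZetaU, tgaZeta]
    congr 3
    push_cast
    ring
  exact RingHom.congr_fun h x

/-- `j(dτ)` is invariant under `Γ₀(d)` -/
theorem tgxRep_jGenL_of_mem_Gamma0 {d : ℕ+} (hd : (d : ℕ) ∣ N) {γ : SL(2, ℤ)}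
    (hγ : γ ∈ Gamma0 d) : tgxRep G γ (tgxJGenL G hd 1) = tgxJGenL G hd 1 := by
  rw [tgxRep_jGenL, one_mul]
  have h1 := jGen_Gamma0_mul d (inv_mem hγ) 1
  rw [mul_one] at h1
  have h2 : tgxJGenR G hd γ⁻¹ = tgxJGenR G hd 1 := Subtype.ext h1
  unfold tgxJGenL
  rw [h2]

end Generic

section Full

variable (𝕜 : Type) [Field 𝕜] [IsAlgClosed 𝕜] [Algebra 𝕜 ℂ] (M : ℕ) [NeZero M]

/-- the action of `SL(2, ℤ)` on the formal full level field, transported from the analytic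
model -/
noncomputable def tgxFullRho :
    SL(2, ℤ) →* (↥(tgFull 𝕜 M (tgxZeta 𝕜 M)) ≃ₐ[𝕜] ↥(tgFull 𝕜 M (tgxZeta 𝕜 M))) :=
  (AlgEquiv.autCongr (tgxFullIso 𝕜 M)).toMonoidHom.comp (tgxRep (tgxFull 𝕜 M))

theorem tgxFullRho_iso (γ : SL(2, ℤ)) (y : TgxField (tgxFull 𝕜 M)) :
    tgxFullRho 𝕜 M γ (tgxFullIso 𝕜 M y) = tgxFullIso 𝕜 M (tgxRep (tgxFull 𝕜 M) γ y) := by
  simp [tgxFullRho, AlgEquiv.autCongr_apply]

theorem tgxFullRho_apply (γ : SL(2, ℤ)) (x : ↥(tgFull 𝕜 M (tgxZeta 𝕜 M))) :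
    tgxFullRho 𝕜 M γ x
      = tgxFullIso 𝕜 M (tgxRep (tgxFull 𝕜 M) γ ((tgxFullIso 𝕜 M).symm x)) := by
  conv_lhs => rw [← (tgxFullIso 𝕜 M).apply_symm_apply x]
  rw [tgxFullRho_iso]

theorem tgxFullIso_jL : tgxFullIso 𝕜 M (tgxJL (tgxFull 𝕜 M)) = tgJ 𝕜 M (tgxZeta 𝕜 M) := by
  rw [tgxFullIso_eq_iff, tgxFieldQL_jL]
  show coeffMap (algebraMap 𝕜 ℂ) (qExpand 𝕜 M (jqModC 𝕜)) = _
  rw [coeffMap_qExpand, coeffMap_jqModC]

theorem tgxFullIso_jGenL {d : ℕ} [NeZero d] (hd : d ∣ M) :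
    tgxFullIso 𝕜 M (tgxJGenL (tgxFull 𝕜 M)
      (d := ⟨d, Nat.pos_of_ne_zero (NeZero.ne d)⟩) hd 1) = tgJd 𝕜 M (tgxZeta 𝕜 M) hd := by
  rw [tgxFullIso_eq_iff, tgxFieldQL_jGenL_one]
  show coeffMap (algebraMap 𝕜 ℂ) (qExpand 𝕜 (M * d) (jqModC 𝕜)) = _
  rw [coeffMap_qExpand, coeffMap_jqModC, qExpand_qExpand]
  rfl

/-- **the Galois package at full level** -/
noncomputable def tgGalois_an : TgGalois 𝕜 M (tgxZeta 𝕜 M) where
  ρ := tgxFullRho 𝕜 M
  ρ_nu := by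
    intro γ v w hv hw
    rw [← tgxFullIso_nu 𝕜 M hv hw, tgxFullRho_iso, tgxRep_ofGen,
      ← tgxFullIso_nu 𝕜 M (tgAct_ne_zero M γ⁻¹ hv) (tgAct_ne_zero M γ⁻¹ hw)]
    congr 1
    unfold tgxOfGen
    congr 1
    apply Subtype.ext
    exact tgx_slAct_tgaNu 𝕜 M γ v w
  ρ_jset := by
    intro γ x hx
    obtain ⟨g, hg, hgx⟩ := tgx_exists_gen_of_mem_tgJSet 𝕜 M hx
    have hx' : x = tgxFullIso 𝕜 M (tgxOfGen (tgxFull 𝕜 M) hg) := Subtype.ext hgx.symm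
    rcases hg with ⟨A, hA, hdvd, rfl⟩ | ⟨v, w, hv, hw, rfl⟩
    · rw [hx', tgxFullRho_iso, tgxRep_ofGen, coe_tgxFullIso]
      have hdvd' : (A * ((γ⁻¹ : SL(2, ℤ)) : Matrix (Fin 2) (Fin 2) ℤ)).det ∣ (M : ℤ) := by
        rw [Matrix.det_mul, (γ⁻¹).det_coe, mul_one]
        exact hdvd
      have h1 := tgxFieldQk_jMat_mem 𝕜 M (det_mul_SL_pos hA γ⁻¹) hdvd'
      convert h1 using 3
      exact KMod.slAct_jMat 𝕜 γ A hA
    · -- a `ν` in `tgJSet`: still fine, its image is a `ν`, but we only know `x ∈ tgJSet`;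
      -- use that `x` is also the expansion of a `j ∘ A`
      obtain ⟨a', d', b', h1, h2, hxe⟩ := hx
      obtain ⟨A, hA, hdvd, hq⟩ := tgx_exists_jMat_of_tgJc M h1 h2
      have hx'' : x = tgxFullIso 𝕜 M (tgxOfGen (tgxFull 𝕜 M) (jMat_mem_tgxFull 𝕜 M hA hdvd)) := by
        symm
        rw [tgxFullIso_eq_iff, hxe, tgx_coeffMap_tgJc, tgxOfGen, tgxFieldQL_algebraMap,
          tgxRingQL_apply]
        exact hq.symm
      rw [hx'', tgxFullRho_iso, tgxRep_ofGen, coe_tgxFullIso]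
      have hdvd' : (A * ((γ⁻¹ : SL(2, ℤ)) : Matrix (Fin 2) (Fin 2) ℤ)).det ∣ (M : ℤ) := by
        rw [Matrix.det_mul, (γ⁻¹).det_coe, mul_one]
        exact hdvd
      have h1 := tgxFieldQk_jMat_mem 𝕜 M (det_mul_SL_pos hA γ⁻¹) hdvd'
      convert h1 using 3
      exact KMod.slAct_jMat 𝕜 γ A hA
  ρ_J := by
    intro γ
    rw [← tgxFullIso_jL, tgxFullRho_iso, tgxRep_jL]
  ρ_T := by
    intro x
    rw [tgxFullRho_apply, coe_tgxFullIso, tgxFieldQk_eq_iff, tgxFieldQL_rep_T_inv,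
      coeffMap_lsTwist, map_tgxZeta, ← coeffMap_tgxFullIso, AlgEquiv.apply_symm_apply]
  fixed := by
    intro x hx
    set y := (tgxFullIso 𝕜 M).symm x with hy
    have hxy : x = tgxFullIso 𝕜 M y := by rw [hy, AlgEquiv.apply_symm_apply]
    have hyfix : y ∈ IntermediateField.fixedField (tgxRep (tgxFull 𝕜 M)).range := by
      rintro ⟨_, γ, rfl⟩
      show tgxRep (tgxFull 𝕜 M) γ y = y
      apply (tgxFullIso 𝕜 M).injective
      rw [← tgxFullRho_iso, ← hxy]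
      exact hx γ
    rw [tgx_fixedField_rep] at hyfix
    have h3 := tgx_mem_adjoin_simple_map (tgxFullIso 𝕜 M) _ y hyfix
    rw [tgxFullIso_jL] at h3
    rw [hxy]
    exact h3
  ρ_jd := by
    intro γ hγ d _ hd
    rw [← tgxFullIso_jGenL 𝕜 M hd, tgxFullRho_iso,
      tgxRep_jGenL_of_mem_Gamma0 (tgxFull 𝕜 M) (d := ⟨d, Nat.pos_of_ne_zero (NeZero.ne d)⟩) hd
        (Gamma0_le_of_dvd hd hγ)]
  stab_jM := by
    intro γ hγ
    rw [← tgxFullIso_jGenL 𝕜 M (dvd_refl M), tgxFullRho_iso, tgxRep_jGenL, one_mul] at hγ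
    have h1 := (tgxFullIso 𝕜 M).injective hγ
    have h2 := tgx_mem_Gamma0_of_jGenL_eq (tgxFull 𝕜 M) γ⁻¹ h1
    simpa using inv_mem h2
  ρ_Gamma := by
    intro γ hγ
    ext x
    rw [tgxFullRho_apply, tgxRep_eq_one_of_mem_Gamma _ hγ]
    simp
  ρ_neg_one := by
    ext x
    rw [tgxFullRho_apply, tgxRep_neg_one]
    simp

end Full

end Fermat.Agent.T1G
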