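/-
T1G, AN-GENUS (D) (helper5): the cover data `TgcCover (tgxRep G) (tgxJL G)` of the analytic model
`TgxField G` of a full level field, for every generator system `G : TgxGens 𝕜 N`
(places above every `j = a` and above `j = ∞`, and their stabilisers: helper1's AN-GMOD
`GMod/Stab.lean`).
-/
import Fermat.Agent.Lib.T1G.GMod.Stab
import Fermat.Agent.Lib.T1G.Model.GenusCover

set_option autoImplicit false
set_option linter.unusedSectionVars false
set_option linter.style.haveILetI false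

namespace Fermat.Agent.T1G

open Fermat.Agent.S24Lib Fermat.Agent.T1

open UpperHalfPlane Matrix MatrixGroups CongruenceSubgroup ModularGroup
open AlgebraicCurve Fermat.Agent.Curve

variable {𝕜 : Type} [Field 𝕜] [IsAlgClosed 𝕜] [Algebra 𝕜 ℂ] {N : ℕ} [NeZero N]
  (G : TgxGens 𝕜 N)

omit [IsAlgClosed 𝕜] in
theorem tgx_exists_jFun_eq (a : 𝕜) : ∃ τ₀ : ℍ, (algebraMap 𝕜 ℂ) a = jFun τ₀ := by
  obtain ⟨τ₀, h⟩ := jFun_surjective ((algebraMap 𝕜 ℂ) a)
  exact ⟨τ₀, h.symm⟩

/-- a place of `TgxField G` above `j = a` (the place at `ρ` for `a = 0`, at `i` for `a = 1728`) -/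
noncomputable def tgxPt (a : 𝕜) : Place 𝕜 (TgxField G) :=
  open Classical in
  if h0 : a = 0 then tgxPointPlace G ellRho 0 (by rw [map_zero, jFun_ellRho])
  else if h1 : a = 1728 then
    tgxPointPlace G UpperHalfPlane.I 1728 (by rw [KMod.iotaC_ofNat 𝕜, jFun_I])
  else tgxPointPlace G (tgx_exists_jFun_eq a).choose a (tgx_exists_jFun_eq a).choose_spec

theorem tgxPt_zero :
    tgxPt G 0 = tgxPointPlace G ellRho 0 (by rw [map_zero, jFun_ellRho]) := by
  rw [tgxPt, dif_pos rfl]

theorem tgxPt_I [CharZero 𝕜] :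
    tgxPt G 1728 =
      tgxPointPlace G UpperHalfPlane.I 1728 (by rw [KMod.iotaC_ofNat 𝕜, jFun_I]) := by
  have h : (1728 : 𝕜) ≠ 0 := by norm_num
  rw [tgxPt, dif_neg h, dif_pos rfl]

theorem tgxPt_gen {a : 𝕜} (h0 : a ≠ 0) (h1 : a ≠ 1728) :
    tgxPt G a = tgxPointPlace G (tgx_exists_jFun_eq a).choose a
      (tgx_exists_jFun_eq a).choose_spec := by
  rw [tgxPt, dif_neg h0, dif_neg h1]

theorem tgxPt_ord_pos (a : 𝕜) :
    0 < (tgxPt G a).ord (tgxJL G - algebraMap 𝕜 (TgxField G) a) := by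
  unfold tgxPt
  split_ifs with h0 h1
  · subst h0
    exact tgxPointPlace_ord_pos G _ _ _
  · subst h1
    exact tgxPointPlace_ord_pos G _ _ _
  · exact tgxPointPlace_ord_pos G _ _ _

/-- **the cover data of the analytic model** -/
noncomputable def tgxCover [CharZero 𝕜] : TgcCover (tgxRep G) (tgxJL G) where
  fin := tgx_finite_range_rep G
  trans := tgx_transcendental_jL G
  fix := tgx_fixedField_rep G
  pt := tgxPt G
  pt_ord := tgxPt_ord_pos G
  stab_gen := fun a h0 h1 γ => by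
    rw [tgxPt_gen G h0 h1]
    exact tgx_generic_stabilizer G _ a _ h0 h1 γ
  stab_zero := fun γ => by
    rw [tgxPt_zero]
    exact tgx_rho_stabilizer G γ
  stab_I := fun γ => by
    rw [tgxPt_I]
    exact tgx_I_stabilizer G γ
  inf := tgxInftyPlace G
  inf_ord := tgxInftyPlace_ord_pos G
  stab_inf := tgx_inftyPlace_stabilizer G

end Fermat.Agent.T1G
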