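/-
T1G, AN-GENUS (D) (helper5): the genus of the `Γ₁(M)`-field over an algebraically closed subfield
`𝕜 ⊆ ℂ`, from ANY identification `e` of the analytic model `TgxField Gx` (helper1's AN-GMOD) with the
algebraic full level field `tgFull 𝕜 M ζ` which intertwines the two `SL₂(ℤ)`-actions and matches `j`:
`12 g + 6 c = n + 12`, and the `F̄`-side package `TgnBarOK`.
-/
import Fermat.Agent.Lib.T1G.GMod.Cover
import Fermat.Agent.Lib.T1G.Model.CoverTransport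
import Fermat.Agent.Lib.T1G.An.GenusOne
import Fermat.Agent.Lib.T1G.Model.BarOK

set_option autoImplicit false
set_option linter.unusedSectionVars false
set_option linter.style.haveILetI false

open HahnSeries ModularCurve Fermat.Agent.Igusa Matrix MatrixGroups CongruenceSubgroup
open IntermediateField Fermat.Agent.Curve AlgebraicCurve ModularGroup Fermat.Agent.T1

noncomputable section

namespace Fermat.Agent.T1G

variable {𝕜 : Type} [Field 𝕜] [IsAlgClosed 𝕜] [Algebra 𝕜 ℂ] [CharZero 𝕜] {M : ℕ} [NeZero M]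
  {ζ : 𝕜ˣ}

/-- the cover data of the algebraic full level field, from the analytic model -/
def tgxCoverFull (G : TgGalois 𝕜 M ζ) (Gx : TgxGens 𝕜 M)
    (e : TgxField Gx ≃ₐ[𝕜] ↥(tgFull 𝕜 M ζ))
    (hρ : ∀ γ x, G.ρ γ (e x) = e (tgxRep Gx γ x)) (he : e (tgxJL Gx) = tgJ 𝕜 M ζ) :
    TgcCover G.ρ (tgJ 𝕜 M ζ) :=
  he ▸ (tgxCover Gx).transport e G.ρ hρ

/-- **the genus of the `Γ₁(M)`-field in characteristic `0`**: `12 g + 6 c = n + 12` -/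
theorem tgx_genusP_tgOne (G : TgGalois 𝕜 M ζ) (Gx : TgxGens 𝕜 M)
    (e : TgxField Gx ≃ₐ[𝕜] ↥(tgFull 𝕜 M ζ))
    (hρ : ∀ γ x, G.ρ γ (e x) = e (tgxRep Gx γ x)) (he : e (tgxJL Gx) = tgJ 𝕜 M ζ)
    (hζ : IsPrimitiveRoot ζ M) (hM : 6 ≤ M) :
    12 * CurveP.genusR 𝕜 ↥(TgOne 𝕜 M ζ) + 6 * tgnCusps M = tgnDeg M + 12 :=
  G.genusP_tgOne hζ hM (tgxCoverFull G Gx e hρ he)

/-- **`TgnBarOK`** from the analytic model in characteristic `0` and a Galois package on the special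
fibre -/
theorem tgx_barOK {κ : Type*} [Field κ] [IsAlgClosed κ] {ζb : κˣ} (G : TgGalois 𝕜 M ζ)
    (Gx : TgxGens 𝕜 M) (e : TgxField Gx ≃ₐ[𝕜] ↥(tgFull 𝕜 M ζ))
    (hρ : ∀ γ x, G.ρ γ (e x) = e (tgxRep Gx γ x)) (he : e (tgxJL Gx) = tgJ 𝕜 M ζ)
    (Gb : TgGalois κ M ζb) (hζ : IsPrimitiveRoot ζ M) (hζb : IsPrimitiveRoot ζb M) (hM : 6 ≤ M)
    (h49 : 4 ∣ M ∨ 9 ∣ M) (hg4 : 4 ∣ M → CurveP.genusR κ (TaBar κ 4) = 0)
    (hg9 : 9 ∣ M → CurveP.genusR κ (TaBar κ 9) = 0) : TgnBarOK 𝕜 κ M ζ ζb :=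
  tgn_barOK G (tgxCoverFull G Gx e hρ he) Gb hζ hζb hM h49 hg4 hg9

end Fermat.Agent.T1G
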