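/-
T1G-AN (helper1), AN-GMOD part 6: the embedding `tgxToMer G : TgxField G →+* tdmMer` into the field
of meromorphic functions on `ℍ`, compatible with the `SL(2,ℤ)`-actions and with the orders of
vanishing.  Port of `Lib/T1/Dict/ToMer.lean`.
-/
import Mathlib
import Fermat.Agent.Lib.T1G.GMod.Points
import Fermat.Agent.Lib.T1.Dict.ToMer

set_option autoImplicit false
set_option linter.unusedSectionVars false
set_option linter.style.haveILetI false
set_option linter.unusedVariables false

namespace Fermat.Agent.T1G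

open Fermat.Agent.S24Lib Fermat.Agent.T1
open UpperHalfPlane Matrix MatrixGroups CongruenceSubgroup WithZero
open AlgebraicCurve Fermat.Agent.Curve
attribute [local instance] KMod.charZero_k

variable {𝕜 : Type} [Field 𝕜] [IsAlgClosed 𝕜] [Algebra 𝕜 ℂ] {N : ℕ} [NeZero N]
  (G : TgxGens 𝕜 N)
theorem tgxToMerAux_injective :
    Function.Injective ((tdmOfHol).comp (tgxRingToHol G)) :=
  tdmOfHol_injective.comp (tgxRingToHol_injective G)

/-- the modular functions of level `N` as meromorphic functions on `ℍ` -/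
noncomputable def tgxToMer : TgxField G →+* tdmMer :=
  IsFractionRing.lift (tgxToMerAux_injective G)

@[simp]
theorem tgxToMer_algebraMap (r : tgxRing G) :
    tgxToMer G (algebraMap (tgxRing G) (TgxField G) r) = tdmOfHol (tgxRingToHol G r) :=
  IsFractionRing.lift_algebraMap _ _

theorem tgxToMer_injective : Function.Injective (tgxToMer G) := RingHom.injective _

theorem tgxToMer_ne_zero {y : TgxField G} (hy : y ≠ 0) : tgxToMer G y ≠ 0 :=
  (map_ne_zero_iff _ (tgxToMer_injective G)).mpr hy

/-- constants go to constants -/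
theorem tgxToMer_const (c : 𝕜) :
    tgxToMer G (algebraMap 𝕜 (TgxField G) c) = algebraMap ℂ tdmMer (algebraMap 𝕜 ℂ c) := by
  rw [IsScalarTower.algebraMap_apply 𝕜 (tgxRing G) (TgxField G), tgxToMer_algebraMap,
    IsScalarTower.algebraMap_apply ℂ holH tdmMer]
  rfl

theorem tgxRingToHol_act (γ : SL(2, ℤ)) (r : tgxRing G) :
    tgxRingToHol G (tgxAct G γ r) = tdmHolSL γ⁻¹ (tgxRingToHol G r) := by
  apply Subtype.ext
  funext τ
  show ((tgxAct G γ r : tgxRing G) : ℍ → ℂ) τ = _
  rw [tgxAct_apply_apply]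
  rfl

/-- `tgxRep γ` is precomposition with `γ⁻¹` -/
theorem tgxToMer_rep (γ : SL(2, ℤ)) (y : TgxField G) :
    tgxToMer G (tgxRep G γ y) = tdmSL γ⁻¹ (tgxToMer G y) := by
  have h : (tgxToMer G).comp ((tgxRep G γ : TgxField G ≃ₐ[𝕜] TgxField G) :
        TgxField G →+* TgxField G)
      = ((tdmSL γ⁻¹ : tdmMer ≃ₐ[ℂ] tdmMer) : tdmMer →+* tdmMer).comp (tgxToMer G) := by
    apply IsLocalization.ringHom_ext (nonZeroDivisors (tgxRing G))
    ext r
    simp only [RingHom.comp_apply, RingHom.coe_coe]
    rw [tgxRep_algebraMap, tgxToMer_algebraMap, tgxToMer_algebraMap, tdmSL_ofHol,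
      tgxRingToHol_act]
  exact RingHom.congr_fun h y

/-- the order valuation at `τ` restricted to `TgxField G` is the extension of `tgxPointValuation` -/
theorem tgx_tdmOrdVal_toMer (τ : ℍ) (y : TgxField G) :
    tdmOrdVal τ (tgxToMer G y)
      = fracValuation (L := TgxField G) (tgxPointValuation G τ) (tgxPointValuation_eq_zero G τ) y := by
  obtain ⟨a, b, hb, rfl⟩ := IsFractionRing.div_surjective (A := tgxRing G) y
  rw [map_div₀, map_div₀, map_div₀, tgxToMer_algebraMap, tgxToMer_algebraMap, tdmOrdVal_ofHol,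
    tdmOrdVal_ofHol, fracValuation_algebraMap, fracValuation_algebraMap]
  rfl

/-- the order at `τ` of an element of `tgxRing G` -/
theorem tgx_tdmOrd_toMer_algebraMap (τ : ℍ) {r : tgxRing G} (hr : r ≠ 0) :
    tdmOrd τ (tgxToMer G (algebraMap (tgxRing G) (TgxField G) r))
      = ((ordAt (r : ℍ → ℂ) τ).toNat : ℤ) := by
  rw [tgxToMer_algebraMap, tdmOrd_ofHol]
  · rfl
  · intro h
    exact hr (tgxRingToHol_injective G (h.trans (map_zero _).symm))

end Fermat.Agent.T1G
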