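/-
T1G-AN (helper1), AN-GMOD part 8: the analytic order at a point `τ` of `ℍ` versus the order at the
place `tgxPointPlace τ` of `TgxField G`; classification of the places of `TgxField G` (every place is
a translate of the place at `∞` or of a point place).  Port of the `ModField`-parts of
`Lib/T1/Dict/{PointOrd,DictFwd,DictBwd}.lean`.
-/
import Mathlib
import Fermat.Agent.Lib.T1G.GMod.ToMer
import Fermat.Agent.Lib.T1G.GMod.InftyOrd
import Fermat.Agent.Lib.T1.Dict.DictBwd

set_option autoImplicit false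
set_option linter.unusedSectionVars false
set_option linter.style.haveILetI false
set_option linter.unusedVariables false

namespace Fermat.Agent.T1G

open Fermat.Agent.S24Lib Fermat.Agent.T1
open UpperHalfPlane Matrix MatrixGroups CongruenceSubgroup WithZero ModularGroup
open AlgebraicCurve Fermat.Agent.Curve Fermat.Agent.Curve.GaloisAux Fermat.Agent.Curve.PlaceAux
attribute [local instance] KMod.charZero_k

variable {𝕜 : Type} [Field 𝕜] [IsAlgClosed 𝕜] [Algebra 𝕜 ℂ] {N : ℕ} [NeZero N]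
  (G : TgxGens 𝕜 N)

theorem tgx_mem_pointPlace_iff (τ₀ : ℍ) (a : 𝕜) (ha : (algebraMap 𝕜 ℂ) a = jFun τ₀)
    (x : TgxField G) :
    x ∈ (tgxPointPlace G τ₀ a ha).toValuationSubring ↔ tdmOrdVal τ₀ (tgxToMer G x) ≤ 1 := by
  rw [tgx_tdmOrdVal_toMer]
  exact mem_fracPlace_iff _ _ _ _ _ _ _

/-- `tgxRep γ` moves the place at `τ₀` to the place at `γ τ₀` -/
theorem tgx_smul_pointPlace (γ : SL(2, ℤ)) (τ₀ : ℍ) (a : 𝕜) (ha : (algebraMap 𝕜 ℂ) a = jFun τ₀)
    (ha' : (algebraMap 𝕜 ℂ) a = jFun (γ • τ₀)) :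
    tgxRep G γ • tgxPointPlace G τ₀ a ha = tgxPointPlace G (γ • τ₀) a ha' := by
  apply Place.ext
  ext x
  rw [Place.smul_toValuationSubring, ValuationSubring.mem_pointwise_smul_iff_inv_smul_mem,
    tgx_mem_pointPlace_iff, tgx_mem_pointPlace_iff]
  have h1 : (tgxRep G γ)⁻¹ • x = tgxRep G γ⁻¹ x := by
    rw [map_inv]
    rfl
  rw [h1, tgxToMer_rep, inv_inv, KMod.tdmOrdVal_SL]

theorem tgx_finiteDimensional_adjoin_jL :
    FiniteDimensional (IntermediateField.adjoin 𝕜 {tgxJL G}) (TgxField G) := by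
  rw [← tgx_fixedField_rep G]
  haveI := tgx_finite_range_rep G
  exact finiteDimensional_fixedField _

theorem tgx_isFunctionFieldGen_jL : IsFunctionFieldGen 𝕜 (TgxField G) (tgxJL G) :=
  ⟨tgx_transcendental_jL G, tgx_finiteDimensional_adjoin_jL G⟩

/-- the analytic order at `τ₀` is a positive multiple of the order at `tgxPointPlace τ₀` -/
theorem tgx_exists_tdmOrd_eq_mul_pointPlace (τ₀ : ℍ) (a : 𝕜) (ha : (algebraMap 𝕜 ℂ) a = jFun τ₀) :
    ∃ M : ℕ, 0 < M ∧ ∀ x : TgxField G,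
      tdmOrd τ₀ (tgxToMer G x) = (M : ℤ) * (tgxPointPlace G τ₀ a ha).ord x := by
  obtain ⟨M, hM, h⟩ := placeOfValuation_ord
    (fracValuation (L := TgxField G) (tgxPointValuation G τ₀) (tgxPointValuation_eq_zero G τ₀))
    (fracValuation_algebraMap_le_one _ _ (tgxPointValuation_algebraMap_le_one G τ₀))
    ⟨algebraMap (tgxRing G) (TgxField G) (tgxJSubR G a), by
        simpa using tgxJSubR_ne_zero G a, by
        rw [fracValuation_algebraMap]; exact (tgxPointValuation_jSubR_lt_one G τ₀ a ha).ne⟩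
  have hP : placeOfValuation
      (fracValuation (L := TgxField G) (tgxPointValuation G τ₀) (tgxPointValuation_eq_zero G τ₀))
      (fracValuation_algebraMap_le_one _ _ (tgxPointValuation_algebraMap_le_one G τ₀))
      ⟨algebraMap (tgxRing G) (TgxField G) (tgxJSubR G a), by
          simpa using tgxJSubR_ne_zero G a, by
          rw [fracValuation_algebraMap]; exact (tgxPointValuation_jSubR_lt_one G τ₀ a ha).ne⟩
      = tgxPointPlace G τ₀ a ha := rfl
  rw [hP] at h
  refine ⟨M, hM, fun x => ?_⟩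
  by_cases hx : x = 0
  · rw [hx, map_zero, tdmOrd_zero, Place.ord_zero, mul_zero]
  have h1 := h x hx
  rw [← tgx_tdmOrdVal_toMer, KMod.tdmOrdVal_eq_exp τ₀ (tgxToMer_ne_zero G hx)] at h1
  have := exp_injective h1
  omega

/-- at a point `τ₀` whose `j`-invariant is not in `𝕜`, no modular function with coefficients in `𝕜`
has a zero or a pole -/
theorem tgx_tdmOrd_toMer_eq_zero_of_forall_ne (τ₀ : ℍ) (h : ∀ a : 𝕜, (algebraMap 𝕜 ℂ) a ≠ jFun τ₀)
    (x : TgxField G) : tdmOrd τ₀ (tgxToMer G x) = 0 := by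
  by_contra hne
  have hx0 : x ≠ 0 := by
    rintro rfl
    apply hne
    rw [map_zero, tdmOrd_zero]
  set w := fracValuation (L := TgxField G) (tgxPointValuation G τ₀)
    (tgxPointValuation_eq_zero G τ₀) with hw
  have hwx : w x ≠ 1 := by
    intro h1
    apply hne
    rw [hw, ← tgx_tdmOrdVal_toMer] at h1
    rw [tdmOrd, h1, log_one, neg_zero]
  set P : Place 𝕜 (TgxField G) := placeOfValuation w
    (fracValuation_algebraMap_le_one _ _ (tgxPointValuation_algebraMap_le_one G τ₀))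
    ⟨x, hx0, hwx⟩ with hP
  have hjmem : tgxJL G ∈ P.toValuationSubring := by
    rw [hP, mem_placeOfValuation_iff, hw, tgxJL, fracValuation_algebraMap,
      tgxPointValuation_apply G τ₀ (tgxJR_ne_zero G), ← exp_zero, exp_le_exp]
    omega
  obtain ⟨c, hc⟩ := exists_const_ordGE_one (tgx_isFunctionFieldGen_jL G) P hjmem
  have hne0 : tgxJL G - algebraMap 𝕜 (TgxField G) c ≠ 0 := by
    intro h0
    apply tgx_transcendental_jL_sub G c
    rw [h0]
    exact isAlgebraic_zero
  rcases (ordGE_iff P).mp hc with h0 | h1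
  · exact hne0 h0
  have hpos : 0 < P.ord (tgxJL G - algebraMap 𝕜 (TgxField G) c) := by omega
  rw [hP, placeOfValuation_ord_pos_iff _ _ _ _ hne0, hw, ← tgx_algebraMap_jSubR,
    fracValuation_algebraMap, tgxPointValuation_apply G τ₀ (tgxJSubR_ne_zero G c), ← exp_zero,
    exp_lt_exp] at hpos
  apply h c
  have h3 : ordAt ((tgxJSubR G c : tgxRing G) : ℍ → ℂ) τ₀ ≠ 0 := by
    intro h0
    rw [h0] at hpos
    simp at hpos
  rw [Ne, ordAt_eq_zero_iff (tgx_mdiff_of_mem_ring G (tgxJSubR G c).2), coe_tgxJSubR] at h3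
  push Not at h3
  exact (sub_eq_zero.mp h3).symm

/-- every place of `TgxField G` is a cusp place or a point place -/
theorem tgx_place_cases (v : Place 𝕜 (TgxField G)) :
    (∃ γ : SL(2, ℤ), v = tgxRep G γ • tgxInftyPlace G) ∨
    (∃ (a : 𝕜) (τ₀ : ℍ) (ha : (algebraMap 𝕜 ℂ) a = jFun τ₀) (γ : SL(2, ℤ)),
      (a = 0 → τ₀ = ellRho) ∧ (a = 1728 → τ₀ = UpperHalfPlane.I) ∧
      v = tgxRep G γ • tgxPointPlace G τ₀ a ha) := by
  haveI := tgx_finite_range_rep G
  by_cases hneg : v.ord (tgxJL G) < 0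
  · left
    have hpos : 0 < v.ord (tgxJL G)⁻¹ := by
      rw [Place.ord_inv]
      omega
    obtain ⟨g, ⟨γ, rfl⟩, hg⟩ := places_transitive (tgxRep G).range (tgxJL G)⁻¹
      (tgx_fixedField_rep_inv G) (tgxInftyPlace G) v (tgxInftyPlace_ord_pos G) hpos
    exact ⟨γ, hg⟩
  · right
    push Not at hneg
    have hjmem : tgxJL G ∈ v.toValuationSubring := mem_of_ord_nonneg v hneg
    obtain ⟨a, hc⟩ := exists_const_ordGE_one (tgx_isFunctionFieldGen_jL G) v hjmem
    have hne0 : tgxJL G - algebraMap 𝕜 (TgxField G) a ≠ 0 := by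
      intro h0
      apply tgx_transcendental_jL_sub G a
      rw [h0]
      exact isAlgebraic_zero
    have hpos : 0 < v.ord (tgxJL G - algebraMap 𝕜 (TgxField G) a) := by
      rcases (ordGE_iff v).mp hc with h0 | h1
      · exact absurd h0 hne0
      · omega
    -- choice of the base point
    have hbase : ∃ τ₀ : ℍ, (algebraMap 𝕜 ℂ) a = jFun τ₀ ∧ (a = 0 → τ₀ = ellRho) ∧
        (a = 1728 → τ₀ = UpperHalfPlane.I) := by
      by_cases h0 : a = 0
      · refine ⟨ellRho, by rw [h0, map_zero, jFun_ellRho], fun _ => rfl, fun h1 => ?_⟩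
        rw [h0] at h1
        norm_num at h1
      by_cases h1 : a = 1728
      · exact ⟨UpperHalfPlane.I, by rw [h1, KMod.iotaC_ofNat 𝕜, jFun_I], fun h => absurd h h0,
          fun _ => rfl⟩
      · obtain ⟨τ₀, hτ₀⟩ := KMod.exists_jFun_eq 𝕜 a
        exact ⟨τ₀, hτ₀, fun h => absurd h h0, fun h => absurd h h1⟩
    obtain ⟨τ₀, ha, hb0, hb1⟩ := hbase
    obtain ⟨g, ⟨γ, rfl⟩, hg⟩ := places_transitive (tgxRep G).range
      (tgxJL G - algebraMap 𝕜 (TgxField G) a) (tgx_fixedField_rep_sub G a)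
      (tgxPointPlace G τ₀ a ha) v (tgxPointPlace_ord_pos G τ₀ a ha) hpos
    exact ⟨a, τ₀, ha, γ, hb0, hb1, hg⟩

/-! ### The converse direction -/

theorem tgx_tdmOrd_jL_sub (τ : ℍ) (a : 𝕜) :
    tdmOrd τ (tgxToMer G (tgxJL G - algebraMap 𝕜 (TgxField G) a))
      = ((ordAt (fun z => jFun z - (algebraMap 𝕜 ℂ) a) τ).toNat : ℤ) := by
  rw [← tgx_algebraMap_jSubR, tgx_tdmOrd_toMer_algebraMap G τ (tgxJSubR_ne_zero G a), coe_tgxJSubR]

end Fermat.Agent.T1G
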