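/-
T1G TG-KRON part C (helper7), step 1: **functoriality of the generic analytic model** `TgxField G`
under precomposition with integral matrices of positive determinant.  If `A` maps the generators of
`G` (level `h`) into the ring of `G'` (level `h'`), then `f ↦ f ∘ A` induces
`tgxhComp : TgxField G →ₐ[𝕜] TgxField G'`, compatible with `tgxToMer` (`tdmCompInt A`), with the
actions of `SL(2, ℤ)` (`γ' A = A γ`), and — for `A` upper triangular — with the `q`-expansions.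
-/
import Mathlib
import Fermat.Agent.Lib.T1G.GMod.InftyOrd
import Fermat.Agent.Lib.T1G.GMod.ToMer
import Fermat.Agent.Lib.T1.Kron.AnalyticPrinciple
import Fermat.Agent.Lib.T1.Mono.HeckeFun

set_option autoImplicit false
set_option linter.unusedSectionVars false
set_option linter.style.haveILetI false
set_option linter.unusedVariables false

namespace Fermat.Agent.T1G

open Fermat.Agent.S24Lib Fermat.Agent.T1 ModularCurve
open UpperHalfPlane Matrix MatrixGroups CongruenceSubgroup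
open Fermat.Agent.S22Lib (intGL intGL_det_pos)
open Fermat.Agent.ES (IsQLaurentable qLaurent)

/-- precomposition with an integral matrix of positive determinant, on all functions on `ℍ` -/
noncomputable def tgxhFun (𝕜 : Type) [Field 𝕜] [Algebra 𝕜 ℂ]
    (A : Matrix (Fin 2) (Fin 2) ℤ) (hA : 0 < A.det) : (ℍ → ℂ) →ₐ[𝕜] (ℍ → ℂ) where
  toFun f := fun τ => f (intGL A hA • τ)
  map_one' := rfl
  map_mul' _ _ := rfl
  map_zero' := rfl
  map_add' _ _ := rfl
  commutes' _ := rfl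

theorem tgxhFun_apply (𝕜 : Type) [Field 𝕜] [Algebra 𝕜 ℂ]
    (A : Matrix (Fin 2) (Fin 2) ℤ) (hA : 0 < A.det) (f : ℍ → ℂ) (τ : ℍ) :
    tgxhFun 𝕜 A hA f τ = f (intGL A hA • τ) := rfl

theorem tgxhFun_injective (𝕜 : Type) [Field 𝕜] [Algebra 𝕜 ℂ]
    (A : Matrix (Fin 2) (Fin 2) ℤ) (hA : 0 < A.det) : Function.Injective (tgxhFun 𝕜 A hA) := by
  intro f g hfg
  funext τ
  have := congrFun hfg ((intGL A hA)⁻¹ • τ)
  simpa [tgxhFun_apply, smul_smul] using this

theorem tgxhFun_congr (𝕜 : Type) [Field 𝕜] [Algebra 𝕜 ℂ]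
    {A B : Matrix (Fin 2) (Fin 2) ℤ} (e : A = B) (hA : 0 < A.det) (hB : 0 < B.det) :
    tgxhFun 𝕜 A hA = tgxhFun 𝕜 B hB := by
  subst e; rfl

/-- `(f ∘ A) ∘ B = f ∘ (A B)` -/
theorem tgxhFun_mul (𝕜 : Type) [Field 𝕜] [Algebra 𝕜 ℂ]
    (A B : Matrix (Fin 2) (Fin 2) ℤ) (hA : 0 < A.det) (hB : 0 < B.det) (hAB : 0 < (A * B).det)
    (f : ℍ → ℂ) : tgxhFun 𝕜 B hB (tgxhFun 𝕜 A hA f) = tgxhFun 𝕜 (A * B) hAB f := by
  funext τ
  rw [tgxhFun_apply, tgxhFun_apply, tgxhFun_apply, Fermat.Agent.S22Lib.intGL_mul A B hA hB hAB,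
    mul_smul]

/-- `slAct γ f = f ∘ γ⁻¹` -/
theorem tgxh_slAct_eq (𝕜 : Type) [Field 𝕜] [IsAlgClosed 𝕜] [Algebra 𝕜 ℂ] (γ : SL(2, ℤ))
    (f : ℍ → ℂ) :
    KMod.slAct 𝕜 γ f
      = tgxhFun 𝕜 ((γ⁻¹ : SL(2, ℤ)) : Matrix (Fin 2) (Fin 2) ℤ) (det_SL_pos γ⁻¹) f := by
  funext τ
  rw [KMod.slAct_apply, tgxhFun_apply, intGL_SL_smul]

variable {𝕜 : Type} [Field 𝕜] [IsAlgClosed 𝕜] [Algebra 𝕜 ℂ] {h h' : ℕ} [NeZero h] [NeZero h']
  (G : TgxGens 𝕜 h) (G' : TgxGens 𝕜 h')

/-- `A` maps the generators of `G` into the ring of `G'` -/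
def TgxhMaps (A : Matrix (Fin 2) (Fin 2) ℤ) (hA : 0 < A.det) : Prop :=
  ∀ g ∈ G.gens, tgxhFun 𝕜 A hA g ∈ tgxRing G'

variable {G G'} {A : Matrix (Fin 2) (Fin 2) ℤ} {hA : 0 < A.det}

theorem TgxhMaps.mem_ring (hm : TgxhMaps G G' A hA) {f : ℍ → ℂ} (hf : f ∈ tgxRing G) :
    tgxhFun 𝕜 A hA f ∈ tgxRing G' := by
  induction hf using Algebra.adjoin_induction with
  | mem f hf => exact hm f hf
  | algebraMap c =>
    rw [AlgHom.commutes]
    exact Subalgebra.algebraMap_mem _ c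
  | add f g _ _ hf hg => rw [map_add]; exact add_mem hf hg
  | mul f g _ _ hf hg => rw [map_mul]; exact mul_mem hf hg

/-- precomposition with `A` on the rings -/
noncomputable def tgxhCompR (hm : TgxhMaps G G' A hA) : tgxRing G →ₐ[𝕜] tgxRing G' :=
  ((tgxhFun 𝕜 A hA).comp (tgxRing G).val).codRestrict (tgxRing G') (fun f => hm.mem_ring f.2)

@[simp]
theorem coe_tgxhCompR (hm : TgxhMaps G G' A hA) (f : tgxRing G) :
    ((tgxhCompR hm f : tgxRing G') : ℍ → ℂ) = tgxhFun 𝕜 A hA (f : ℍ → ℂ) := rfl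

theorem tgxhCompR_injective (hm : TgxhMaps G G' A hA) : Function.Injective (tgxhCompR hm) := by
  intro f g hfg
  apply Subtype.ext
  apply tgxhFun_injective 𝕜 A hA
  exact congrArg Subtype.val hfg

/-- **precomposition with `A`** on the fields of modular functions -/
noncomputable def tgxhComp (hm : TgxhMaps G G' A hA) : TgxField G →ₐ[𝕜] TgxField G' :=
  IsFractionRing.liftAlgHom (K := TgxField G)
    (g := (IsScalarTower.toAlgHom 𝕜 (tgxRing G') (TgxField G')).comp (tgxhCompR hm))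
    ((IsFractionRing.injective (tgxRing G') (TgxField G')).comp (tgxhCompR_injective hm))

@[simp]
theorem tgxhComp_algebraMap (hm : TgxhMaps G G' A hA) (r : tgxRing G) :
    tgxhComp hm (algebraMap (tgxRing G) (TgxField G) r)
      = algebraMap (tgxRing G') (TgxField G') (tgxhCompR hm r) := by
  simp [tgxhComp, IsFractionRing.liftAlgHom_apply]

theorem tgxhComp_injective (hm : TgxhMaps G G' A hA) : Function.Injective (tgxhComp hm) :=
  (tgxhComp hm).toRingHom.injective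

/-- two ring homomorphisms on `TgxField G` agreeing on `tgxRing G` are equal -/
theorem tgxh_ringHom_ext {R : Type*} [Semiring R] {φ ψ : TgxField G →+* R}
    (hφψ : ∀ r : tgxRing G, φ (algebraMap (tgxRing G) (TgxField G) r)
      = ψ (algebraMap (tgxRing G) (TgxField G) r)) : φ = ψ := by
  apply IsLocalization.ringHom_ext (nonZeroDivisors (tgxRing G))
  ext r
  exact hφψ r

theorem tgxRingToHol_tgxhCompR (hm : TgxhMaps G G' A hA) (r : tgxRing G) :
    tgxRingToHol G' (tgxhCompR hm r)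
      = tdmHolComp (intGL A hA) (intGL_det_pos A hA) (tgxRingToHol G r) := by
  apply Subtype.ext
  rfl

/-- **compatibility with the meromorphic functions**: `tgxhComp` is `y ↦ y ∘ A` -/
theorem tgxToMer_tgxhComp (hm : TgxhMaps G G' A hA) (x : TgxField G) :
    tgxToMer G' (tgxhComp hm x) = tdmCompInt A hA (tgxToMer G x) := by
  have key : (tgxToMer G').comp ((tgxhComp hm : TgxField G →ₐ[𝕜] TgxField G') :
        TgxField G →+* TgxField G')
      = ((tdmCompInt A hA : tdmMer →ₐ[ℂ] tdmMer) : tdmMer →+* tdmMer).comp (tgxToMer G) := by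
    apply tgxh_ringHom_ext
    intro r
    simp only [RingHom.comp_apply, RingHom.coe_coe]
    rw [tgxhComp_algebraMap, tgxToMer_algebraMap, tgxToMer_algebraMap, tdmCompInt, tdmComp_ofHol,
      tgxRingToHol_tgxhCompR]
  exact RingHom.congr_fun key x

/-- **equivariance**: if `A γ⁻¹ = γ'⁻¹ A` then `ρ' γ (x ∘ A) = (ρ γ' x) ∘ A` -/
theorem tgxRep_tgxhComp (hm : TgxhMaps G G' A hA) (γ γ' : SL(2, ℤ))
    (hγ : A * ((γ⁻¹ : SL(2, ℤ)) : Matrix (Fin 2) (Fin 2) ℤ)
      = ((γ'⁻¹ : SL(2, ℤ)) : Matrix (Fin 2) (Fin 2) ℤ) * A) (x : TgxField G) :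
    tgxRep G' γ (tgxhComp hm x) = tgxhComp hm (tgxRep G γ' x) := by
  apply tgxToMer_injective G'
  have h1 : 0 < (A * ((γ⁻¹ : SL(2, ℤ)) : Matrix (Fin 2) (Fin 2) ℤ)).det := by
    rw [tdm_det_mul_SL]; exact hA
  have h2 : 0 < (((γ'⁻¹ : SL(2, ℤ)) : Matrix (Fin 2) (Fin 2) ℤ) * A).det := by
    rw [tdm_det_SL_mul]; exact hA
  rw [tgxToMer_rep, tgxToMer_tgxhComp, tgxToMer_tgxhComp, tgxToMer_rep,
    tdmSL_compInt _ _ _ h1, tdmCompInt_congr hγ h1 h2, tdmCompInt_SL_mul _ _ hA h2]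

/-- **the `q`-expansion of `x ∘ U`**, `U = (a b; 0 d)` upper triangular, `e d h = a h'` -/
theorem tgxFieldQL_tgxhComp_upper (a b d : ℤ) (hd : 0 < d)
    (hdet : 0 < (!![a, b; 0, d] : Matrix (Fin 2) (Fin 2) ℤ).det)
    (e : ℕ) [NeZero e] (he : (e : ℤ) * (d * h) = a * h')
    (hm : TgxhMaps G G' !![a, b; 0, d] hdet) (x : TgxField G) :
    tgxFieldQL G' (tgxhComp hm x)
      = qExpand ℂ e (tkrTw (tkrExpUnit b (d * h)) (tgxFieldQL G x)) := by
  have key : (tgxFieldQL G').comp ((tgxhComp hm : TgxField G →ₐ[𝕜] TgxField G') :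
        TgxField G →+* TgxField G')
      = ((qExpand ℂ e).comp (tkrTw (tkrExpUnit b (d * h)))).comp (tgxFieldQL G) := by
    apply tgxh_ringHom_ext
    intro r
    simp only [RingHom.comp_apply, RingHom.coe_coe]
    rw [tgxhComp_algebraMap, tgxFieldQL_algebraMap, tgxFieldQL_algebraMap, tgxRingQL_apply,
      tgxRingQL_apply]
    exact (tkr_qLaurent_comp_upper a b d hd hdet h h' e he (tgxRing_props G r.2).1).2
  exact RingHom.congr_fun key x

end Fermat.Agent.T1G
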