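/-
T1G-AN (helper1), AN-GMOD part 9: the analytic meaning of the order of the `q_N`-expansion at the
cusps (`tgx_cusp_analytic`), and the base change of coefficients `𝕜 → ℂ` (`G.toC`, `tgxFieldIncl`).
Port of the `ModField`-parts of `Lib/T1/Dict/{CuspAnalytic,BaseChange}.lean`.
-/
import Mathlib
import Fermat.Agent.Lib.T1G.GMod.ToMer
import Fermat.Agent.Lib.T1G.GMod.InftyOrd
import Fermat.Agent.Lib.T1.Dict.CuspAnalytic

set_option autoImplicit false
set_option linter.unusedSectionVars false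
set_option linter.style.haveILetI false
set_option linter.unusedVariables false

namespace Fermat.Agent.T1G

open Fermat.Agent.S24Lib Fermat.Agent.T1
open UpperHalfPlane Matrix MatrixGroups CongruenceSubgroup Filter Topology Complex
open Fermat.Agent.ES (IsQLaurentable qLaurent IsNice qH)
open scoped Real Manifold
attribute [local instance] KMod.charZero_k

variable {𝕜 : Type} [Field 𝕜] [IsAlgClosed 𝕜] [Algebra 𝕜 ℂ] {N : ℕ} [NeZero N]
  (G : TgxGens 𝕜 N)

/-- leading term at `i∞` of an element of `tgxRing G` -/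
theorem tgx_tendsto_ring {r : tgxRing G} (hr : r ≠ 0) :
    ∃ w₀ : ℂ, w₀ ≠ 0 ∧
      Tendsto (fun τ : ℍ => (r : ℍ → ℂ) τ * (qH (N : ℝ) τ) ^ (-(tgxRingQL G r).order))
        atImInfty (𝓝 w₀) := by
  have h1 : IsQLaurentable N (r : ℍ → ℂ) := (tgxRing_props G r.2).1
  have h2 : (r : ℍ → ℂ) ≠ 0 := by
    intro h0
    exact hr (Subtype.ext h0)
  exact tdd_tendsto_qLaurentable N h1 h2

/-- **analytic meaning of the order at a cusp** (in the shape consumed by `tdm_mult_of_cusp`) -/
theorem tgx_cusp_analytic (X : TgxField G) (hX : X ≠ 0) :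
    ∃ (A B : holH) (C : ℝ) (w₀ : ℂ), w₀ ≠ 0 ∧ tgxToMer G X = tdmOfHol A / tdmOfHol B ∧
      (∀ τ : ℍ, C < τ.im → (B : ℍ → ℂ) τ ≠ 0) ∧
      Tendsto (fun τ : ℍ => (A : ℍ → ℂ) τ / (B : ℍ → ℂ) τ *
        cexp (-(2 * π * Complex.I * ((((tgxFieldQL G X).order : ℝ) / N : ℝ) : ℂ) * τ)))
        atImInfty (𝓝 w₀) := by
  obtain ⟨a, b, hb, rfl⟩ := IsFractionRing.div_surjective (A := tgxRing G) X
  have hb0 : b ≠ 0 := nonZeroDivisors.ne_zero hb
  have ha0 : a ≠ 0 := by
    rintro rfl
    apply hX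
    rw [map_zero, zero_div]
  obtain ⟨wa, hwa, hla⟩ := tgx_tendsto_ring G ha0
  obtain ⟨wb, hwb, hlb⟩ := tgx_tendsto_ring G hb0
  have hqa : tgxRingQL G a ≠ 0 := (tgxRingQL_eq_zero_iff G).not.mpr ha0
  have hqb : tgxRingQL G b ≠ 0 := (tgxRingQL_eq_zero_iff G).not.mpr hb0
  have hord : (tgxFieldQL G (algebraMap (tgxRing G) (TgxField G) a /
      algebraMap (tgxRing G) (TgxField G) b)).order
      = (tgxRingQL G a).order - (tgxRingQL G b).order := by
    rw [map_div₀, tgxFieldQL_algebraMap, tgxFieldQL_algebraMap]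
    have hq : tgxRingQL G a / tgxRingQL G b ≠ 0 := div_ne_zero hqa hqb
    have h1 : (tgxRingQL G a).order
        = (tgxRingQL G a / tgxRingQL G b).order + (tgxRingQL G b).order := by
      rw [← HahnSeries.order_mul hq hqb, div_mul_cancel₀ _ hqb]
    omega
  -- `b` does not vanish high up
  have hbne : ∀ᶠ τ in atImInfty, (b : ℍ → ℂ) τ ≠ 0 := by
    have := hlb.eventually_ne hwb
    filter_upwards [this] with τ hτ h0
    apply hτ
    rw [h0, zero_mul]
  obtain ⟨C, hC⟩ := (atImInfty_mem _).mp hbne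
  refine ⟨tgxRingToHol G a, tgxRingToHol G b, C, wa / wb, div_ne_zero hwa hwb, ?_,
    fun τ hτ => hC τ hτ.le, ?_⟩
  · rw [map_div₀, tgxToMer_algebraMap, tgxToMer_algebraMap]
  · refine (hla.div hlb hwb).congr (fun τ => ?_)
    rw [hord]
    have hq0 : qH (N : ℝ) τ ≠ 0 := Fermat.Agent.ES.qH_ne_zero _ τ
    have e1 : cexp (-(2 * π * Complex.I * (((((tgxRingQL G a).order - (tgxRingQL G b).order : ℤ) : ℝ)
        / N : ℝ) : ℂ) * τ))
        = (qH (N : ℝ) τ) ^ (-((tgxRingQL G a).order - (tgxRingQL G b).order)) := by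
      rw [tdd_qH_zpow]
      congr 1
      push_cast
      ring
    rw [e1]
    show (a : ℍ → ℂ) τ * (qH (N : ℝ) τ) ^ (-(tgxRingQL G a).order)
        / ((b : ℍ → ℂ) τ * (qH (N : ℝ) τ) ^ (-(tgxRingQL G b).order))
      = (a : ℍ → ℂ) τ / (b : ℍ → ℂ) τ * _
    rw [neg_sub, zpow_sub₀ hq0, _root_.zpow_neg, _root_.zpow_neg]
    have h3 : (qH (N : ℝ) τ) ^ (tgxRingQL G a).order ≠ 0 := zpow_ne_zero _ hq0
    have h4 : (qH (N : ℝ) τ) ^ (tgxRingQL G b).order ≠ 0 := zpow_ne_zero _ hq0
    field_simp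

/-! ### Base change of the coefficients to `ℂ` -/

/-- the same generating system, over `ℂ` -/
def TgxGens.toC : TgxGens ℂ N where
  gens := G.gens
  jgen_mem := G.jgen_mem
  laur := G.laur
  rat := fun g _ m => ⟨_, rfl⟩
  act_mem := fun γ g hg => G.act_mem γ g hg
  gamma_inv := fun γ hγ g hg => G.gamma_inv γ hγ g hg

@[simp]
theorem TgxGens.toC_gens : G.toC.gens = G.gens := rfl

/-- `tgxRing G ⊆ tgxRing G.toC` -/
theorem tgx_mem_ring_complex {f : ℍ → ℂ} (hf : f ∈ tgxRing G) : f ∈ tgxRing G.toC := by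
  induction hf using Algebra.adjoin_induction with
  | mem x hx => exact Algebra.subset_adjoin hx
  | algebraMap c =>
      have h : algebraMap 𝕜 (ℍ → ℂ) c = algebraMap ℂ (ℍ → ℂ) (algebraMap 𝕜 ℂ c) := by
        funext τ
        rfl
      rw [h]
      exact Subalgebra.algebraMap_mem _ _
  | add x y _ _ hx hy => exact add_mem hx hy
  | mul x y _ _ hx hy => exact mul_mem hx hy

/-- the inclusion `tgxRing G → tgxRing G.toC` -/
noncomputable def tgxRingIncl : tgxRing G →+* tgxRing G.toC :=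
  ((tgxRing G).val : tgxRing G →+* (ℍ → ℂ)).codRestrict (tgxRing G.toC)
    (fun f => tgx_mem_ring_complex G f.2)

theorem coe_tgxRingIncl (f : tgxRing G) :
    ((tgxRingIncl G f : tgxRing G.toC) : ℍ → ℂ) = (f : ℍ → ℂ) :=
  (RingHom.codRestrict_apply _ _ _ f).trans (Subalgebra.val_apply _ f)

theorem tgxRingIncl_injective : Function.Injective (tgxRingIncl G) :=
  RingHom.injective_codRestrict.mpr Subtype.val_injective

theorem tgxFieldInclAux_injective :
    Function.Injective ((algebraMap (tgxRing G.toC) (TgxField G.toC)).comp (tgxRingIncl G)) :=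
  (IsFractionRing.injective (tgxRing G.toC) (TgxField G.toC)).comp (tgxRingIncl_injective G)

/-- the inclusion `TgxField G → TgxField G.toC` -/
noncomputable def tgxFieldIncl : TgxField G →+* TgxField G.toC :=
  IsFractionRing.lift (tgxFieldInclAux_injective G)

@[simp]
theorem tgxFieldIncl_algebraMap (r : tgxRing G) :
    tgxFieldIncl G (algebraMap (tgxRing G) (TgxField G) r)
      = algebraMap (tgxRing G.toC) (TgxField G.toC) (tgxRingIncl G r) :=
  IsFractionRing.lift_algebraMap _ _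

theorem tgxFieldIncl_injective : Function.Injective (tgxFieldIncl G) := RingHom.injective _

/-- the inclusion commutes with `tgxToMer` -/
theorem tgxToMer_fieldIncl (X : TgxField G) :
    tgxToMer G.toC (tgxFieldIncl G X) = tgxToMer G X := by
  have h : (tgxToMer G.toC).comp (tgxFieldIncl G) = tgxToMer G := by
    apply IsLocalization.ringHom_ext (nonZeroDivisors (tgxRing G))
    ext r
    simp only [RingHom.comp_apply]
    rw [tgxFieldIncl_algebraMap, tgxToMer_algebraMap, tgxToMer_algebraMap]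
    have h1 : tgxRingToHol G.toC (tgxRingIncl G r) = tgxRingToHol G r := Subtype.ext rfl
    rw [h1]
  exact RingHom.congr_fun h X

/-- the inclusion commutes with the `q_N`-expansions -/
theorem tgxFieldQL_fieldIncl (X : TgxField G) :
    tgxFieldQL G.toC (tgxFieldIncl G X) = tgxFieldQL G X := by
  have h : (tgxFieldQL G.toC).comp (tgxFieldIncl G) = tgxFieldQL G := by
    apply IsLocalization.ringHom_ext (nonZeroDivisors (tgxRing G))
    ext r
    simp only [RingHom.comp_apply]
    rw [tgxFieldIncl_algebraMap, tgxFieldQL_algebraMap, tgxFieldQL_algebraMap, tgxRingQL_apply,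
      tgxRingQL_apply, coe_tgxRingIncl]
  exact RingHom.congr_fun h X

/-- the inclusion commutes with the actions of `SL(2, ℤ)` -/
theorem tgxFieldIncl_rep (γ : SL(2, ℤ)) (X : TgxField G) :
    tgxFieldIncl G (tgxRep G γ X) = tgxRep G.toC γ (tgxFieldIncl G X) := by
  apply tgxToMer_injective G.toC
  rw [tgxToMer_fieldIncl, tgxToMer_rep, tgxToMer_rep, tgxToMer_fieldIncl]

end Fermat.Agent.T1G
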