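/-
T1G TG-KRON part C (helper7), step 2: **the Hecke level of a generating system**.  For a generating
system `G` of level `h` and `l ≥ 1`, the functions `g ∘ A`, `g ∈ G.gens`, `A` an integral matrix
with `0 < det A ∣ l`, form a generating system `tgxhGens G l` of level `h l`: Hermite normal form
and the `q`-expansion of `g ∘ (a b; 0 d)` give the expansions, and `A γ = γ' A` with `γ' ∈ Γ(h)`
for `γ ∈ Γ(h l)` gives the invariance.
-/
import Mathlib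
import Fermat.Agent.Lib.T1G.GMod.Comp

set_option autoImplicit false
set_option linter.unusedSectionVars false
set_option linter.style.haveILetI false
set_option linter.unusedVariables false

namespace Fermat.Agent.T1G

open Fermat.Agent.S24Lib Fermat.Agent.T1 ModularCurve
open UpperHalfPlane Matrix MatrixGroups CongruenceSubgroup
open Fermat.Agent.S22Lib (intGL intGL_det_pos)
open Fermat.Agent.ES (IsQLaurentable qLaurent)

/-! ### A matrix lemma -/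

/-- for `γ ∈ Γ(h l)` and `A` with `0 < det A ∣ l` there is `γ' ∈ Γ(h)` with `A γ = γ' A` -/
theorem tgxh_exists_conj (h l : ℕ) (A : Matrix (Fin 2) (Fin 2) ℤ) (hA : 0 < A.det)
    (hdvd : A.det ∣ (l : ℤ)) {γ : SL(2, ℤ)} (hγ : γ ∈ Gamma (h * l)) :
    ∃ γ' ∈ Gamma h, A * (γ : Matrix (Fin 2) (Fin 2) ℤ) = (γ' : Matrix (Fin 2) (Fin 2) ℤ) * A := by
  obtain ⟨k, hk⟩ := hdvd
  rw [Gamma_mem] at hγ
  obtain ⟨h00, h01, h10, h11⟩ := hγ
  have e00 : (((h * l : ℕ) : ℤ)) ∣ γ 0 0 - 1 := by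
    rw [← ZMod.intCast_zmod_eq_zero_iff_dvd]
    push_cast
    rw [h00, sub_self]
  have e01 : (((h * l : ℕ) : ℤ)) ∣ γ 0 1 := by
    rw [← ZMod.intCast_zmod_eq_zero_iff_dvd]; exact h01
  have e10 : (((h * l : ℕ) : ℤ)) ∣ γ 1 0 := by
    rw [← ZMod.intCast_zmod_eq_zero_iff_dvd]; exact h10
  have e11 : (((h * l : ℕ) : ℤ)) ∣ γ 1 1 - 1 := by
    rw [← ZMod.intCast_zmod_eq_zero_iff_dvd]
    push_cast
    rw [h11, sub_self]
  obtain ⟨x00, hx00⟩ := e00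
  obtain ⟨x01, hx01⟩ := e01
  obtain ⟨x10, hx10⟩ := e10
  obtain ⟨x11, hx11⟩ := e11
  set X : Matrix (Fin 2) (Fin 2) ℤ := !![x00, x01; x10, x11] with hX
  have hγX : (γ : Matrix (Fin 2) (Fin 2) ℤ) = 1 + ((h : ℤ) * l) • X := by
    ext i j
    fin_cases i <;> fin_cases j <;>
      simp [hX, Matrix.add_apply, Matrix.smul_apply, Matrix.one_apply] <;> push_cast at * <;>
      linarith
  set B : Matrix (Fin 2) (Fin 2) ℤ := 1 + ((h : ℤ) * k) • (A * X * A.adjugate) with hB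
  have hBA : B * A = A * (γ : Matrix (Fin 2) (Fin 2) ℤ) := by
    rw [hB, hγX, Matrix.add_mul, Matrix.mul_add, Matrix.one_mul, Matrix.mul_one,
      Matrix.smul_mul, Matrix.mul_smul, Matrix.mul_assoc (A * X), Matrix.adjugate_mul,
      Matrix.mul_smul, Matrix.mul_one, smul_smul, hk]
    congr 2
    ring
  have hdetB : B.det = 1 := by
    have h1 : B.det * A.det = A.det * 1 := by
      rw [← Matrix.det_mul, hBA, Matrix.det_mul, γ.det_coe]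
    rw [mul_comm] at h1
    exact mul_left_cancel₀ hA.ne' h1
  refine ⟨⟨B, hdetB⟩, ?_, hBA.symm⟩
  rw [Gamma_mem]
  have hcast : ∀ i j : Fin 2, ((B i j : ℤ) : ZMod h) = ((1 : Matrix (Fin 2) (Fin 2) ℤ) i j : ℤ) := by
    intro i j
    rw [hB, Matrix.add_apply, Matrix.smul_apply, smul_eq_mul]
    push_cast
    rw [ZMod.natCast_self, zero_mul, zero_mul, add_zero]
  refine ⟨?_, ?_, ?_, ?_⟩
  · exact (hcast 0 0).trans (by simp)
  · exact (hcast 0 1).trans (by simp)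
  · exact (hcast 1 0).trans (by simp)
  · exact (hcast 1 1).trans (by simp)

variable {𝕜 : Type} [Field 𝕜] [IsAlgClosed 𝕜] [Algebra 𝕜 ℂ] {h : ℕ} [NeZero h]
  (G : TgxGens 𝕜 h) (l : ℕ) [NeZero l]

/-! ### Expansions of `g ∘ A` -/

/-- the expansion of `g ∘ (a b; 0 d)`, `a d ∣ l` -/
theorem tgxh_upper_props (a b d : ℤ) (ha : 0 < a) (hd : 0 < d)
    (hdet : 0 < (!![a, b; 0, d] : Matrix (Fin 2) (Fin 2) ℤ).det) (hdvd : a * d ∣ (l : ℤ))
    {g : ℍ → ℂ} (hg : IsQLaurentable h g) (hrat : qLaurent h g ∈ ratLS (KMod.kImg 𝕜)) :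
    IsQLaurentable (h * l) (tgxhFun 𝕜 !![a, b; 0, d] hdet g) ∧
      qLaurent (h * l) (tgxhFun 𝕜 !![a, b; 0, d] hdet g) ∈ ratLS (KMod.kImg 𝕜) := by
  obtain ⟨k, hk⟩ := hdvd
  have hl0 : (0 : ℤ) < l := by exact_mod_cast Nat.pos_of_ne_zero (NeZero.ne l)
  have hk0 : 0 < k := by
    rw [hk] at hl0
    exact (pos_iff_pos_of_mul_pos hl0).mp (mul_pos ha hd)
  have he0 : 0 < a * a * k := mul_pos (mul_pos ha ha) hk0
  set e : ℕ := (a * a * k).toNat with he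
  have hee : (e : ℤ) = a * a * k := Int.toNat_of_nonneg he0.le
  haveI : NeZero e := ⟨by
    intro h0
    rw [h0] at hee
    simp at hee
    omega⟩
  have hrel : (e : ℤ) * (d * h) = a * ((h * l : ℕ) : ℤ) := by
    rw [hee]
    push_cast
    rw [hk]
    ring
  obtain ⟨h1, h2⟩ := tkr_qLaurent_comp_upper a b d hd hdet h (h * l) e hrel hg
  refine ⟨h1, ?_⟩
  have h2' : qLaurent (h * l) (tgxhFun 𝕜 !![a, b; 0, d] hdet g)
      = qExpand ℂ e (tkrTw (tkrExpUnit b (d * h)) (qLaurent h g)) := h2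
  rw [h2']
  intro m
  by_cases hm : (e : ℤ) ∣ m
  · obtain ⟨m', rfl⟩ := hm
    rw [qExpand_coeff_mul, tkrTw_coeff, Units.val_zpow_eq_zpow_val]
    refine mul_mem (zpow_mem ?_ _) (hrat m')
    rw [tkrExpUnit_val]
    have hdh : (0 : ℤ) < d * h := mul_pos hd (by exact_mod_cast Nat.pos_of_ne_zero (NeZero.ne h))
    have := KMod.exp_two_pi_mul_div_mem_kImg 𝕜 b (d * h) hdh
    push_cast at this ⊢
    exact this
  · rw [qExpand_coeff_of_not_dvd e _ hm]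
    exact zero_mem _

/-- `g ∘ γ`, `γ ∈ SL(2, ℤ)`, is a generator -/
theorem tgxh_SL_mem_gens (γ : SL(2, ℤ)) {g : ℍ → ℂ} (hg : g ∈ G.gens) :
    tgxhFun 𝕜 (γ : Matrix (Fin 2) (Fin 2) ℤ) (det_SL_pos γ) g ∈ G.gens := by
  have h1 := G.act_mem γ⁻¹ g hg
  rw [tgxh_slAct_eq] at h1
  have h2 : ((γ⁻¹)⁻¹ : SL(2, ℤ)) = γ := inv_inv γ
  rwa [tgxhFun_congr 𝕜 (congrArg (fun x : SL(2, ℤ) => (x : Matrix (Fin 2) (Fin 2) ℤ)) h2)
    _ (det_SL_pos γ)] at h1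

/-- the expansion of `g ∘ A`, `det A ∣ l` -/
theorem tgxh_comp_props (A : Matrix (Fin 2) (Fin 2) ℤ) (hA : 0 < A.det) (hdvd : A.det ∣ (l : ℤ))
    {g : ℍ → ℂ} (hg : g ∈ G.gens) :
    IsQLaurentable (h * l) (tgxhFun 𝕜 A hA g) ∧
      qLaurent (h * l) (tgxhFun 𝕜 A hA g) ∈ ratLS (KMod.kImg 𝕜) := by
  obtain ⟨γ₀, a, b, d, ha, hd, hAeq⟩ := Fermat.Agent.S22Lib.exists_SL2Z_mul_eq_upper A hA
  have hU : 0 < (!![a, b; 0, d] : Matrix (Fin 2) (Fin 2) ℤ).det := by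
    rw [Fermat.Agent.S22Lib.upper_det]; exact mul_pos ha hd
  have hdetA : A.det = a * d := by
    rw [hAeq, Matrix.det_mul, γ₀.det_coe, one_mul, Fermat.Agent.S22Lib.upper_det]
  have hg' := tgxh_SL_mem_gens G γ₀ hg
  have hprod : 0 < ((γ₀ : Matrix (Fin 2) (Fin 2) ℤ) * !![a, b; 0, d]).det := by
    rw [← hAeq]; exact hA
  have h1 : tgxhFun 𝕜 A hA g
      = tgxhFun 𝕜 !![a, b; 0, d] hU (tgxhFun 𝕜 (γ₀ : Matrix (Fin 2) (Fin 2) ℤ) (det_SL_pos γ₀) g) := by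
    rw [tgxhFun_mul 𝕜 _ _ (det_SL_pos γ₀) hU hprod]
    exact congrFun (congrArg DFunLike.coe (tgxhFun_congr 𝕜 hAeq hA hprod)) g
  rw [h1]
  exact tgxh_upper_props l a b d ha hd hU (by rw [← hdetA]; exact hdvd) (G.laur _ hg')
    (G.rat _ hg')

/-! ### The generating system -/

/-- the generators of the Hecke level: `g ∘ A`, `g ∈ G.gens`, `0 < det A ∣ l` -/
def tgxhGenSet : Set (ℍ → ℂ) :=
  {f | ∃ g ∈ G.gens, ∃ (A : Matrix (Fin 2) (Fin 2) ℤ) (hA : 0 < A.det),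
    A.det ∣ (l : ℤ) ∧ f = tgxhFun 𝕜 A hA g}

theorem tgxh_mem_genSet {g : ℍ → ℂ} (hg : g ∈ G.gens) (A : Matrix (Fin 2) (Fin 2) ℤ)
    (hA : 0 < A.det) (hdvd : A.det ∣ (l : ℤ)) : tgxhFun 𝕜 A hA g ∈ tgxhGenSet G l :=
  ⟨g, hg, A, hA, hdvd, rfl⟩

theorem tgxh_slAct_genSet (γ : SL(2, ℤ)) {f : ℍ → ℂ} (hf : f ∈ tgxhGenSet G l) :
    KMod.slAct 𝕜 γ f ∈ tgxhGenSet G l := by
  obtain ⟨g, hg, A, hA, hdvd, rfl⟩ := hf
  have h1 : 0 < (A * ((γ⁻¹ : SL(2, ℤ)) : Matrix (Fin 2) (Fin 2) ℤ)).det := det_mul_SL_pos hA γ⁻¹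
  rw [tgxh_slAct_eq, tgxhFun_mul 𝕜 A _ hA (det_SL_pos γ⁻¹) h1]
  refine tgxh_mem_genSet G l hg _ h1 ?_
  rw [tdm_det_mul_SL]
  exact hdvd

theorem tgxh_gamma_inv_genSet {γ : SL(2, ℤ)} (hγ : γ ∈ Gamma (h * l)) {f : ℍ → ℂ}
    (hf : f ∈ tgxhGenSet G l) : KMod.slAct 𝕜 γ f = f := by
  obtain ⟨g, hg, A, hA, hdvd, rfl⟩ := hf
  obtain ⟨γ', hγ', hconj⟩ := tgxh_exists_conj h l A hA hdvd ((Gamma (h * l)).inv_mem hγ)
  have h1 : 0 < (A * ((γ⁻¹ : SL(2, ℤ)) : Matrix (Fin 2) (Fin 2) ℤ)).det := det_mul_SL_pos hA γ⁻¹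
  have h2 : 0 < ((γ' : Matrix (Fin 2) (Fin 2) ℤ) * A).det := det_SL_mul_pos γ' hA
  rw [tgxh_slAct_eq, tgxhFun_mul 𝕜 A _ hA (det_SL_pos γ⁻¹) h1,
    congrFun (congrArg DFunLike.coe (tgxhFun_congr 𝕜 hconj h1 h2)) g,
    ← tgxhFun_mul 𝕜 _ A (det_SL_pos γ') hA h2]
  congr 1
  have h3 := G.gamma_inv γ'⁻¹ ((Gamma h).inv_mem hγ') g hg
  rw [tgxh_slAct_eq] at h3
  have h4 : ((γ'⁻¹)⁻¹ : SL(2, ℤ)) = γ' := inv_inv γ'
  rwa [tgxhFun_congr 𝕜 (congrArg (fun x : SL(2, ℤ) => (x : Matrix (Fin 2) (Fin 2) ℤ)) h4)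
    _ (det_SL_pos γ')] at h3

theorem tgxh_intGL_congr {A B : Matrix (Fin 2) (Fin 2) ℤ} (e : A = B) (hA : 0 < A.det)
    (hB : 0 < B.det) : intGL A hA = intGL B hB := by
  subst e; rfl

theorem tgxh_diagMat_mul (a b : ℕ) : diagMat a * diagMat b = diagMat (a * b) := by
  ext i j
  fin_cases i <;> fin_cases j <;> simp [diagMat, Matrix.mul_apply, Fin.sum_univ_two]

theorem tgxh_jgen_mem_genSet : S24Lib.gens (h * l) ⊆ tgxhGenSet G l := by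
  rintro f ⟨d, hd, γ, rfl⟩
  have hh : 0 < h := Nat.pos_of_ne_zero (NeZero.ne h)
  set d₀ : ℕ := Nat.gcd d h with hd₀
  have hd₀pos : 0 < d₀ := Nat.gcd_pos_of_pos_right _ hh
  obtain ⟨e, he⟩ : d₀ ∣ (d : ℕ) := Nat.gcd_dvd_left _ _
  obtain ⟨h₁, hh₁⟩ : d₀ ∣ h := Nat.gcd_dvd_right _ _
  have hepos : 0 < e := by
    rcases Nat.eq_zero_or_pos e with h0 | h0
    · rw [h0, mul_zero] at he
      exact absurd he d.pos.ne'
    · exact h0
  have hcop : Nat.Coprime e h₁ := by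
    have := Nat.coprime_div_gcd_div_gcd (m := (d : ℕ)) (n := h) hd₀pos
    rw [← hd₀] at this
    have e1 : (d : ℕ) / d₀ = e := by rw [he]; exact Nat.mul_div_cancel_left e hd₀pos
    have e2 : h / d₀ = h₁ := by rw [hh₁]; exact Nat.mul_div_cancel_left h₁ hd₀pos
    rwa [e1, e2] at this
  have hel : e ∣ l := by
    have h1 : d₀ * e ∣ d₀ * (h₁ * l) := by
      rw [← he, ← mul_assoc, ← hh₁]; exact hd
    have h2 : e ∣ h₁ * l := Nat.dvd_of_mul_dvd_mul_left hd₀pos h1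
    exact hcop.dvd_of_dvd_mul_left h2
  set d₀' : ℕ+ := ⟨d₀, hd₀pos⟩ with hd₀'
  have hgen : S24Lib.jGen d₀' 1 ∈ G.gens := G.jgen_mem ⟨d₀', Nat.gcd_dvd_right _ _, 1, rfl⟩
  have hB : 0 < (diagMat e * (γ : Matrix (Fin 2) (Fin 2) ℤ)).det := by
    rw [tdm_det_mul_SL, diagMat_det]; exact_mod_cast hepos
  have hBdet : (diagMat e * (γ : Matrix (Fin 2) (Fin 2) ℤ)).det ∣ (l : ℤ) := by
    rw [tdm_det_mul_SL, diagMat_det]; exact_mod_cast hel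
  have key : S24Lib.jGen d γ = tgxhFun 𝕜 (diagMat e * (γ : Matrix (Fin 2) (Fin 2) ℤ)) hB (S24Lib.jGen d₀' 1) := by
    funext τ
    rw [tgxhFun_apply, S24Lib.jGen, S24Lib.jGen, jMat_apply, jMat_apply]
    have hmat : diagMat (d : ℕ) * (γ : Matrix (Fin 2) (Fin 2) ℤ)
        = (diagMat ((d₀' : ℕ+) : ℕ) * ((1 : SL(2, ℤ)) : Matrix (Fin 2) (Fin 2) ℤ))
          * (diagMat e * (γ : Matrix (Fin 2) (Fin 2) ℤ)) := by
      rw [Matrix.SpecialLinearGroup.coe_one, Matrix.mul_one, ← Matrix.mul_assoc,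
        tgxh_diagMat_mul]
      congr 2
    have hprod : 0 < ((diagMat ((d₀' : ℕ+) : ℕ) * ((1 : SL(2, ℤ)) : Matrix (Fin 2) (Fin 2) ℤ))
          * (diagMat e * (γ : Matrix (Fin 2) (Fin 2) ℤ))).det := by
      rw [← hmat]; exact det_diagMat_mul_pos d γ
    rw [← mul_smul, ← Fermat.Agent.S22Lib.intGL_mul _ _ (det_diagMat_mul_pos d₀' 1) hB hprod]
    rw [tgxh_intGL_congr hmat (det_diagMat_mul_pos d γ) hprod]
  rw [key]
  exact tgxh_mem_genSet G l hgen _ hB hBdet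

/-- **the Hecke level** `h l` of the generating system `G` -/
noncomputable def tgxhGens : TgxGens 𝕜 (h * l) where
  gens := tgxhGenSet G l
  jgen_mem := tgxh_jgen_mem_genSet G l
  laur := by
    rintro f ⟨g, hg, A, hA, hdvd, rfl⟩
    exact (tgxh_comp_props G l A hA hdvd hg).1
  rat := by
    rintro f ⟨g, hg, A, hA, hdvd, rfl⟩
    exact (tgxh_comp_props G l A hA hdvd hg).2
  act_mem := fun γ f hf => tgxh_slAct_genSet G l γ hf
  gamma_inv := fun γ hγ f hf => tgxh_gamma_inv_genSet G l hγ hf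

theorem tgxhGens_gens : (tgxhGens G l).gens = tgxhGenSet G l := rfl

/-- every `A` with `0 < det A ∣ l` maps `G` into its Hecke level -/
theorem tgxhMaps_hecke (A : Matrix (Fin 2) (Fin 2) ℤ) (hA : 0 < A.det) (hdvd : A.det ∣ (l : ℤ)) :
    TgxhMaps G (tgxhGens G l) A hA :=
  fun g hg => tgx_gen_mem_ring (tgxhGens G l) (tgxh_mem_genSet G l hg A hA hdvd)

end Fermat.Agent.T1G
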