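/-
T1G-AN (helper1): **the analytic model of the function field of `Γ₁(M)`**:
`tgdModelOne 𝕜 M hM : TgdModel 𝕜 (Gamma1 M) M (tgOneQ M)` — the field `laurentBaseChange 𝕜 (tgOneQ M)`
(`= TgOne 𝕜 M ζ`) is the fixed field of `Γ₁(M)` in the analytic full level field
`TgxField (tgxFull 𝕜 M)`, compatibly with the `q`-expansions.
-/
import Mathlib
import Fermat.Agent.Lib.T1G.GMod.FullGalois
import Fermat.Agent.Lib.T1G.Dict.Model
import Fermat.Agent.Lib.T1G.Model.Cusps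

set_option autoImplicit false
set_option linter.unusedSectionVars false
set_option linter.style.haveILetI false
set_option linter.unusedVariables false

namespace Fermat.Agent.T1G

open Fermat.Agent.S24Lib Fermat.Agent.T1 ModularCurve
open UpperHalfPlane Matrix MatrixGroups CongruenceSubgroup
open ModularGroup (T)
attribute [local instance] KMod.charZero_k

/-! ### The standing hypotheses on `Γ₁(M)` -/

theorem tgx_T_zpow_mem_Gamma (M : ℕ) (k : ℤ) : T ^ ((M : ℤ) * k) ∈ Gamma M := by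
  rw [Gamma_mem, ModularGroup.coe_T_zpow]
  simp

theorem tgx_trace_of_mem_Gamma1 {M : ℕ} {γ : SL(2, ℤ)} (hγ : γ ∈ Gamma1 M) :
    (((γ : Matrix (Fin 2) (Fin 2) ℤ).trace : ℤ) : ZMod M) = 2 := by
  rw [Gamma1_mem] at hγ
  obtain ⟨h00, h11, -⟩ := hγ
  rw [Matrix.trace_fin_two]
  push_cast
  rw [h00, h11]
  norm_num

theorem tgx_trace_conj_T (σ : SL(2, ℤ)) (n : ℤ) :
    ((σ⁻¹ * T ^ n * σ : SL(2, ℤ)) : Matrix (Fin 2) (Fin 2) ℤ).trace = 2 := by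
  have h1 : ((σ⁻¹ * T ^ n * σ : SL(2, ℤ)) : Matrix (Fin 2) (Fin 2) ℤ)
      = (σ⁻¹ : SL(2, ℤ)).1 * ((T ^ n : SL(2, ℤ)).1 * σ.1) := by
    rw [mul_assoc]
    rfl
  rw [h1, Matrix.trace_mul_comm, Matrix.mul_assoc]
  have h2 : σ.1 * (σ⁻¹ : SL(2, ℤ)).1 = 1 := by
    have h := congrArg (fun g : SL(2, ℤ) => (g : Matrix (Fin 2) (Fin 2) ℤ)) (mul_inv_cancel σ)
    exact h
  rw [h2, Matrix.mul_one]
  have h3 : ((T ^ n : SL(2, ℤ)) : Matrix (Fin 2) (Fin 2) ℤ) = !![1, n; 0, 1] :=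
    ModularGroup.coe_T_zpow n
  show ((T ^ n : SL(2, ℤ)) : Matrix (Fin 2) (Fin 2) ℤ).trace = 2
  rw [h3, Matrix.trace_fin_two]
  simp

/-- the standing hypotheses of the monodromy layer hold for `Γ₁(M)`, `M ≥ 5` -/
theorem tgnGroup_Gamma1 (M : ℕ) (hM : 5 ≤ M) : TgnGroup (Gamma1 M) M where
  T_mem := by
    rw [Gamma1_mem]
    simp [ModularGroup.T]
  conj_mem := fun σ k => by
    haveI : (Gamma M).Normal := Gamma_normal M
    haveI : NeZero M := ⟨by omega⟩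
    apply tg_Gamma_le_Gamma1 M
    have h1 := (Gamma_normal M).conj_mem _ (tgx_T_zpow_mem_Gamma M k) σ⁻¹
    rwa [inv_inv] at h1
  neg_conj := fun σ n hneg => by
    exfalso
    have h1 := tgx_trace_of_mem_Gamma1 hneg
    have h2 : ((-(σ⁻¹ * T ^ n * σ) : SL(2, ℤ)) : Matrix (Fin 2) (Fin 2) ℤ).trace = -2 := by
      rw [Matrix.SpecialLinearGroup.coe_neg, Matrix.trace_neg, tgx_trace_conj_T]
    rw [h2] at h1
    have h3 : ((4 : ℕ) : ZMod M) = 0 := by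
      have : ((-2 : ℤ) : ZMod M) = 2 := h1
      push_cast at this ⊢
      linear_combination -this
    rw [ZMod.natCast_eq_zero_iff] at h3
    have := Nat.le_of_dvd (by norm_num) h3
    omega

section Model

variable (𝕜 : Type) [Field 𝕜] [IsAlgClosed 𝕜] [Algebra 𝕜 ℂ] [Algebra ℚ 𝕜] (M : ℕ) [NeZero M]

theorem tgx_baseChange_oneQ :
    laurentBaseChange 𝕜 (tgOneQ M) = TgOne 𝕜 M (tgxZeta 𝕜 M) :=
  tg_baseChange_oneQ M 𝕜 (tgxZeta 𝕜 M) (tgxZeta_isPrimitiveRoot 𝕜 M)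

/-- `ι_M` followed by the inverse of the comparison isomorphism -/
noncomputable def tgxOneHom : ↥(laurentBaseChange 𝕜 (tgOneQ M)) →ₐ[𝕜] TgxField (tgxFull 𝕜 M) :=
  (((tgxFullIso 𝕜 M).symm : ↥(tgFull 𝕜 M (tgxZeta 𝕜 M)) ≃ₐ[𝕜] TgxField (tgxFull 𝕜 M)) :
      ↥(tgFull 𝕜 M (tgxZeta 𝕜 M)) →ₐ[𝕜] TgxField (tgxFull 𝕜 M)).comp
    ((tgOneIncl 𝕜 M (tgxZeta 𝕜 M)).comp
      ((IntermediateField.equivOfEq (tgx_baseChange_oneQ 𝕜 M) :
        ↥(laurentBaseChange 𝕜 (tgOneQ M)) ≃ₐ[𝕜] ↥(TgOne 𝕜 M (tgxZeta 𝕜 M))) :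
        ↥(laurentBaseChange 𝕜 (tgOneQ M)) →ₐ[𝕜] ↥(TgOne 𝕜 M (tgxZeta 𝕜 M))))

theorem tgxFullIso_tgxOneHom (y : ↥(laurentBaseChange 𝕜 (tgOneQ M))) :
    ((tgxFullIso 𝕜 M (tgxOneHom 𝕜 M y) : ↥(tgFull 𝕜 M (tgxZeta 𝕜 M))) : LaurentSeries 𝕜)
      = qExpand 𝕜 M (y : LaurentSeries 𝕜) := by
  simp [tgxOneHom]

/-- the `q_M`-expansion of `tgxOneHom y` -/
theorem tgxFieldQL_tgxOneHom (y : ↥(laurentBaseChange 𝕜 (tgOneQ M))) :
    tgxFieldQL (tgxFull 𝕜 M) (tgxOneHom 𝕜 M y)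
      = qExpand ℂ M (coeffMap (algebraMap 𝕜 ℂ) (y : LaurentSeries 𝕜)) := by
  rw [← coeffMap_tgxFullIso, tgxFullIso_tgxOneHom, coeffMap_qExpand]

variable (hM : 6 ≤ M)

include hM in
theorem tgxOneHom_mem_fixedField (y : ↥(laurentBaseChange 𝕜 (tgOneQ M))) :
    tgxOneHom 𝕜 M y ∈ IntermediateField.fixedField ((Gamma1 M).map (tgxRep (tgxFull 𝕜 M))) := by
  rintro ⟨_, γ, hγ, rfl⟩
  show tgxRep (tgxFull 𝕜 M) γ (tgxOneHom 𝕜 M y) = tgxOneHom 𝕜 M y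
  apply (tgxFullIso 𝕜 M).injective
  rw [← tgxFullRho_iso]
  have hy : (y : LaurentSeries 𝕜) ∈ TgOne 𝕜 M (tgxZeta 𝕜 M) := by
    rw [← tgx_baseChange_oneQ]
    exact y.2
  exact ((tgGalois_an 𝕜 M).mem_tgOne_iff (tgxZeta_isPrimitiveRoot 𝕜 M) hM _).mpr
    ⟨_, hy, (tgxFullIso_tgxOneHom 𝕜 M y).symm⟩ γ hγ

include hM in
theorem tgx_exists_tgxOneHom_eq (z : TgxField (tgxFull 𝕜 M))
    (hz : z ∈ IntermediateField.fixedField ((Gamma1 M).map (tgxRep (tgxFull 𝕜 M)))) :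
    ∃ y, tgxOneHom 𝕜 M y = z := by
  have h1 : ∀ γ ∈ Gamma1 M, (tgGalois_an 𝕜 M).ρ γ (tgxFullIso 𝕜 M z) = tgxFullIso 𝕜 M z := by
    intro γ hγ
    show tgxFullRho 𝕜 M γ (tgxFullIso 𝕜 M z) = _
    rw [tgxFullRho_iso]
    congr 1
    exact hz ⟨_, γ, hγ, rfl⟩
  obtain ⟨y, hy, hyz⟩ :=
    ((tgGalois_an 𝕜 M).mem_tgOne_iff (tgxZeta_isPrimitiveRoot 𝕜 M) hM _).mp h1
  have hy' : y ∈ laurentBaseChange 𝕜 (tgOneQ M) := by
    rw [tgx_baseChange_oneQ]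
    exact hy
  refine ⟨⟨y, hy'⟩, ?_⟩
  apply (tgxFullIso 𝕜 M).injective
  apply Subtype.ext
  rw [tgxFullIso_tgxOneHom]
  exact hyz

/-- **the function field of `Γ₁(M)` is the fixed field of `Γ₁(M)` in the analytic full level
field** -/
noncomputable def tgxOneIso :
    ↥(laurentBaseChange 𝕜 (tgOneQ M)) ≃ₐ[𝕜]
      ↥(IntermediateField.fixedField ((Gamma1 M).map (tgxRep (tgxFull 𝕜 M)))) :=
  AlgEquiv.ofBijective
    ((tgxOneHom 𝕜 M).codRestrict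
      (IntermediateField.fixedField ((Gamma1 M).map (tgxRep (tgxFull 𝕜 M)))).toSubalgebra
      (tgxOneHom_mem_fixedField 𝕜 M hM))
    ⟨by
      intro a b hab
      apply (tgxOneHom 𝕜 M).toRingHom.injective
      exact congrArg Subtype.val hab, by
      rintro ⟨z, hz⟩
      obtain ⟨y, hy⟩ := tgx_exists_tgxOneHom_eq 𝕜 M hM z hz
      exact ⟨y, Subtype.ext hy⟩⟩

@[simp]
theorem coe_tgxOneIso (y : ↥(laurentBaseChange 𝕜 (tgOneQ M))) :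
    ((tgxOneIso 𝕜 M hM y : ↥(IntermediateField.fixedField
      ((Gamma1 M).map (tgxRep (tgxFull 𝕜 M))))) : TgxField (tgxFull 𝕜 M)) = tgxOneHom 𝕜 M y := rfl

include hM in
theorem tgx_ker_le_Gamma1 (γ : SL(2, ℤ)) (hγ : tgxRep (tgxFull 𝕜 M) γ = 1) :
    γ ∈ Gamma1 M ∨ -γ ∈ Gamma1 M := by
  have h1 : (tgGalois_an 𝕜 M).ρ γ = 1 := by
    apply AlgEquiv.ext
    intro x
    show tgxFullRho 𝕜 M γ x = x
    rw [tgxFullRho_apply, hγ]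
    simp
  have h2 : γ ∈ (tgGalois_an 𝕜 M).ρ.ker := MonoidHom.mem_ker.mpr h1
  rw [(tgGalois_an 𝕜 M).ker_eq (tgxZeta_isPrimitiveRoot 𝕜 M) (by omega)] at h2
  exact tgPm_mono (tg_Gamma_le_Gamma1 M) h2

/-- **THE ANALYTIC MODEL OF THE FUNCTION FIELD OF `Γ₁(M)`** -/
noncomputable def tgdModelOne : TgdModel 𝕜 (Gamma1 M) M (tgOneQ M) where
  G := tgxFull 𝕜 M
  grp := tgnGroup_Gamma1 M (by omega)
  ker_le := tgx_ker_le_Gamma1 𝕜 M hM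
  iso := tgxOneIso 𝕜 M hM
  iso_ql := fun y => by
    rw [coe_tgxOneIso]
    exact tgxFieldQL_tgxOneHom 𝕜 M y

end Model

end Fermat.Agent.T1G
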